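/-
P-ORD (S33), block (G-B) "add_approx on the two-component fibre", owner helper94: INTERFACES.

Target: `Fermat.Agent.H92.ORD.NodalAddApproxStatement (fun N A Foo F0 ι G => NodalPkg G)`
(helper92's `[ADD]`), the nodal twin of `Fermat.Agent.H72.FF.AddApproxStatement` (P-FF, FF-G7).

Everything here is a definition / `Prop`; provers land `theorem foo : <Statement>` (with the
other statements as hypotheses where allowed) in their own directory.

PART C (one component, on helper18's `CompHyp`): the LOCAL blocks on the residue disc of a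
smooth point: Taylor, T-APPROX, ROOT-APPROX, DISC-ZERO.  They are the VERBATIM twins of the P-FF
statements with  `gaussRing A N -> V`, `gaussRed A N -> red`, `Fkb A N -> Fk`,
`r P = Q -> r P = pt Q` (+ `smooth Q`), `GeoSetup -> CompSetup`.

PART N (both components): the GLOBAL blocks of the explicit Jacobi two-step, with
`O = V_∞ ∩ V_0` (`nodalO`), pole divisor `n (P_∞ + P_0)` (one inertia-fixed point on EACH
component) and the reductions taken as PAIRS `(red_∞ u, red_0 u)`.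
-/
import Fermat.Agent.H92.ORD.NodalJacDefs
import Fermat.Agent.H18.ORD.NodalLiftDefs
import Fermat.Agent.H94.FF.G7Interfaces

set_option autoImplicit false
set_option synthInstance.maxHeartbeats 400000
set_option linter.style.haveILetI false
set_option linter.unusedSectionVars false

noncomputable section

open AlgebraicCurve ModularCurve Fermat.Agent.H27.ESD

namespace Fermat.Agent.H94.ORD

open Fermat.Agent.H10.FF Fermat.Agent.H72.FF Fermat.Agent.H18.ORD Fermat.Agent.H92.ORD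
  Fermat.Agent.H94.FF

/-! ## PART C : one component -/

/-- **Standing hypotheses of the local blocks** (one component of a nodal reduction). -/
structure CompSetup (N p : ℕ) (A : ValuationSubring Qb) {Fk : Type} [Field Fk]
    [Algebra (kRes A) Fk] {X : Type} (V : Subring (FLb N)) (red : V →+* Fk)
    (r : Place Qb (FLb N) → X) (pt : Place (kRes A) Fk → X)
    (smooth : Place (kRes A) Fk → Prop) : Prop where
  prime : p.Prime
  liesOver : A.LiesOverPrime p
  comp : CompHyp A (IsLocalRing.residue A) V red r pt smooth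
  /-- elements with nonzero reduction are units of `V` -/
  inv : ∀ u : V, red u ≠ 0 → (u : FLb N)⁻¹ ∈ V
  degL : ∀ v : Place Qb (FLb N), v.deg = 1
  ptInj : Function.Injective pt

/-- An unramified coordinate on the residue disc of the smooth point `Q` (twin of
`Fermat.Agent.H72.FF.IsUnrCoord`). -/
structure IsUnrCoordC (A : ValuationSubring Qb) (N : ℕ) {Fk : Type} [Field Fk]
    [Algebra (kRes A) Fk] {X : Type} (V : Subring (FLb N)) (red : V →+* Fk)
    (r : Place Qb (FLb N) → X) (pt : Place (kRes A) Fk → X) (Q : Place (kRes A) Fk)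
    (P : Place Qb (FLb N)) (t : V) : Prop where
  sp : r P = pt Q
  unrP : IsUnrPlace A N P
  unrT : IsUnrFn A N (t : FLb N)
  zero : 1 ≤ P.ord (t : FLb N)
  simple : Q.ord (red t) = 1
  nopole : ∀ P1, r P1 = pt Q → 0 ≤ P1.ord (t : FLb N)

/-- **[C-TAYLOR]** twin of `Fermat.Agent.H72.FF.TaylorRedStatement`. -/
def TaylorRedC : Prop :=
  ∀ (N p : ℕ) (A : ValuationSubring Qb) (Fk : Type) [Field Fk] [Algebra (kRes A) Fk] (X : Type)
    (V : Subring (FLb N)) (red : V →+* Fk) (r : Place Qb (FLb N) → X)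
    (pt : Place (kRes A) Fk → X) (smooth : Place (kRes A) Fk → Prop),
    CompSetup N p A V red r pt smooth →
    ∀ (Q : Place (kRes A) Fk), smooth Q → ∀ (P : Place Qb (FLb N)) (t : V),
      IsUnrCoordC A N V red r pt Q P t →
      ∀ y : V, IsUnrFn A N (y : FLb N) →
        (∀ P1, r P1 = pt Q → 0 ≤ P1.ord (y : FLb N)) →
        ∀ M : ℕ, ∃ c : Fin M → A, (∀ n, ((c n : A) : Qb) ∈ unrInt A) ∧
          (∀ P1, r P1 = pt Q → ∀ a b : Qb, HasValue P1 (t : FLb N) a →
            HasValue P1 (y : FLb N) b →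
            ∃ e ∈ A, b - ∑ n : Fin M, ((c n : A) : Qb) * a ^ (n : ℕ) = a ^ M * e) ∧
          (red y - ∑ n : Fin M,
              algebraMap (kRes A) Fk (IsLocalRing.residue A (c n)) * (red t) ^ (n : ℕ) = 0 ∨
            (M : ℤ) ≤ (Q.ord (red y - ∑ n : Fin M,
              algebraMap (kRes A) Fk (IsLocalRing.residue A (c n)) * (red t) ^ (n : ℕ))))

/-- **[C-TAPPROX]** twin of `Fermat.Agent.H94.FF.TaylorApproxStatement`. -/
def TaylorApproxC : Prop :=
  ∀ (N p : ℕ) (A : ValuationSubring Qb) (Fk : Type) [Field Fk] [Algebra (kRes A) Fk] (X : Type)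
    (V : Subring (FLb N)) (red : V →+* Fk) (r : Place Qb (FLb N) → X)
    (pt : Place (kRes A) Fk → X) (smooth : Place (kRes A) Fk → Prop),
    CompSetup N p A V red r pt smooth →
    ∀ (Q : Place (kRes A) Fk), smooth Q → ∀ (P : Place Qb (FLb N)) (t : V),
      IsUnrCoordC A N V red r pt Q P t →
      ∀ y : V, IsUnrFn A N (y : FLb N) →
        (∀ P1, r P1 = pt Q → 0 ≤ P1.ord (y : FLb N)) →
        ∀ (S : Type) [Finite S] (n : ℕ) (x : S → Fin n → Qb), (∀ s i, x s i ∈ A.nonunits) →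
        ∀ (pts : S → Place Qb (FLb N)) (τ v : S → Qb), (∀ s, r (pts s) = pt Q) →
          (∀ s, HasValue (pts s) (t : FLb N) (τ s)) →
          (∀ s, HasValue (pts s) (y : FLb N) (v s)) →
          IsApprox p A x τ → IsApprox p A x v

/-- the constant `a ∈ A` as an element of `V` -/
def constC {N p : ℕ} {A : ValuationSubring Qb} {Fk : Type} [Field Fk]
    [Algebra (kRes A) Fk] {X : Type} {V : Subring (FLb N)} {red : V →+* Fk}
    {r : Place Qb (FLb N) → X} {pt : Place (kRes A) Fk → X}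
    {smooth : Place (kRes A) Fk → Prop} (hS : CompSetup N p A V red r pt smooth) (a : A) : V :=
  ⟨algebraMap Qb (FLb N) (a : Qb), hS.comp.const_mem a⟩

/-- **[C-ROOT]** twin of `Fermat.Agent.H94.FF.RootApproxStatement`. -/
def RootApproxC : Prop :=
  ∀ (N p : ℕ) (A : ValuationSubring Qb) (Fk : Type) [Field Fk] [Algebra (kRes A) Fk] (X : Type)
    (V : Subring (FLb N)) (red : V →+* Fk) (r : Place Qb (FLb N) → X)
    (pt : Place (kRes A) Fk → X) (smooth : Place (kRes A) Fk → Prop)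
    (hS : CompSetup N p A V red r pt smooth),
    ∀ (Q : Place (kRes A) Fk), smooth Q → ∀ (P : Place Qb (FLb N)) (t : V),
      IsUnrCoordC A N V red r pt Q P t →
      ∀ (d : ℕ) (y : Fin d → V), (∀ j, IsUnrFn A N (y j : FLb N)) →
        (∀ j P1, r P1 = pt Q → 0 ≤ P1.ord (y j : FLb N)) →
        ∀ (S : Type) [Finite S] (n : ℕ) (x : S → Fin n → Qb), (∀ s i, x s i ∈ A.nonunits) →
        ∀ (κ : Fin d → S → A), (∀ j, IsApprox p A x (fun s => (κ j s : Qb))) →
          (∀ s, Q.ord (red (∑ j, constC hS (κ j s) * y j)) = 1) →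
          ∀ (pts : S → Place Qb (FLb N)) (τ : S → Qb), (∀ s, r (pts s) = pt Q) →
            (∀ s, HasValue (pts s) (t : FLb N) (τ s)) →
            (∀ s, HasValue (pts s)
              (((∑ j, constC hS (κ j s) * y j : V)) : FLb N) 0) →
            IsApprox p A x τ

/-- **[C-DISC]** twin of `Fermat.Agent.H94.FF.DiscZeroStatement`. -/
def DiscZeroC : Prop :=
  ∀ (N p : ℕ) (A : ValuationSubring Qb) (Fk : Type) [Field Fk] [Algebra (kRes A) Fk] (X : Type)
    (V : Subring (FLb N)) (red : V →+* Fk) (r : Place Qb (FLb N) → X)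
    (pt : Place (kRes A) Fk → X) (smooth : Place (kRes A) Fk → Prop),
    CompSetup N p A V red r pt smooth →
    ∀ (Q : Place (kRes A) Fk), smooth Q → ∀ (u : V), Q.ord (red u) = 1 →
      (∀ P1, r P1 = pt Q → 0 ≤ P1.ord (u : FLb N)) →
      ∃ P, r P = pt Q ∧ P.ord (u : FLb N) = 1 ∧
        ∀ P1, r P1 = pt Q → P1 ≠ P → P1.ord (u : FLb N) = 0

/-! ## PART N : both components -/

section Nodal

variable {N : ℕ} {A : ValuationSubring Qb} {Foo F0 : Type} [Field Foo] [Field F0]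
  [Algebra (kRes A) Foo] [Algebra (kRes A) F0] {ι : Type}

/-- points of the special fibre -/
abbrev NP (A : ValuationSubring Qb) (Foo F0 : Type) [Field Foo] [Field F0]
    [Algebra (kRes A) Foo] [Algebra (kRes A) F0] (ι : Type) : Type :=
  NPt (Place (kRes A) Foo) (Place (kRes A) F0) ι

/-- smooth points of the special fibre -/
def IsSm (G : NodalData N A Foo F0 ι) : NP A Foo F0 ι → Prop
  | NPt.oo Q => Q ∉ Set.range G.nOo
  | NPt.zero Q => Q ∉ Set.range G.n0
  | NPt.node _ => False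

/-- the functions which are integral for BOTH Gauss valuations -/
def nodalO (G : NodalData N A Foo F0 ι) : Subring (FLb N) := G.Voo ⊓ G.V0

/-- reduction on `C_∞` of a doubly integral function -/
def redOoO (G : NodalData N A Foo F0 ι) : nodalO G →+* Foo :=
  G.redOo.comp (Subring.inclusion inf_le_left)

/-- reduction on `C_0` of a doubly integral function -/
def red0O (G : NodalData N A Foo F0 ι) : nodalO G →+* F0 :=
  G.red0.comp (Subring.inclusion inf_le_right)

/-- "`y` is integral on the component carrying the point `v`" -/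
def InComp (G : NodalData N A Foo F0 ι) (v : NP A Foo F0 ι) (y : FLb N) : Prop :=
  match v with
  | NPt.oo _ => y ∈ G.Voo
  | NPt.zero _ => y ∈ G.V0
  | NPt.node _ => False

/-- the order of a pair `(x, y) ∈ F_∞ × F_0` at a point of the special fibre (`0` at the nodes
by convention) -/
def ordPair (x : Foo) (y : F0) : NP A Foo F0 ι → ℤ
  | NPt.oo Q => Q.ord x
  | NPt.zero Q => Q.ord y
  | NPt.node _ => 0

/-- "the pair `(x, y)` vanishes at the smooth point `v`" -/
def VanishAt (x : Foo) (y : F0) : NP A Foo F0 ι → Prop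
  | NPt.oo Q => HasVal Q x 0
  | NPt.zero Q => HasVal Q y 0
  | NPt.node _ => True

/-- **The lifting package of block (G-B)**: helper18's `NodalLift`, Riemann packages and
separating elements on both components, and the numerical identity [NC]
`g + 1 = g_∞ + g_0 + #nodes`. -/
structure NodalPkg (G : NodalData N A Foo F0 ι) : Prop where
  lift : NodalLift G
  algClosed : IsAlgClosed (kRes A)
  fin : Finite ι
  nc : ∀ g : ℕ, RiemannPackage Qb (FLb N) g → ∃ gOo gZ : ℕ,
    RiemannPackage (kRes A) Foo gOo ∧ RiemannPackage (kRes A) F0 gZ ∧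
    (g : ℤ) + 1 = (gOo : ℤ) + (gZ : ℤ) + (Nat.card ι : ℤ)
  sepOo : ∃ x : Foo, FiniteDimensional (IntermediateField.adjoin (kRes A) {x}) Foo ∧
    Algebra.IsSeparable (IntermediateField.adjoin (kRes A) {x}) Foo
  sepZero : ∃ x : F0, FiniteDimensional (IntermediateField.adjoin (kRes A) {x}) F0 ∧
    Algebra.IsSeparable (IntermediateField.adjoin (kRes A) {x}) F0

/-- The divisor data of the reduced auxiliary sections `(fo a, fz a)` (`a ∈ Fin g ⊕ Fin g`):
glued pairs, units at the nodes, poles of exact order `nn a` at `Q_∞ ∈ C_∞` and at `Q_0 ∈ C_0`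
and nowhere else, a simple zero at `Qs (jproj a)`, simple zeros at the (smooth) points of
`Zx a`, no other zeros; the sets `Zx a` are pairwise disjoint and avoid `Q_∞`, `Q_0` and all
`Qs i`. -/
structure IsAuxFamilyN (G : NodalData N A Foo F0 ι) {g : ℕ} (Qs : Fin g → NP A Foo F0 ι)
    (Qoo : Place (kRes A) Foo) (Q0 : Place (kRes A) F0) (nn : Fin g ⊕ Fin g → ℕ)
    (fo : Fin g ⊕ Fin g → Foo) (fz : Fin g ⊕ Fin g → F0)
    (Zx : Fin g ⊕ Fin g → Finset (NP A Foo F0 ι)) : Prop where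
  sm_oo : Qoo ∉ Set.range G.nOo
  sm_zero : Q0 ∉ Set.range G.n0
  qinf_ne : ∀ i, Qs i ≠ NPt.oo Qoo ∧ Qs i ≠ NPt.zero Q0
  ne_zero : ∀ a, fo a ≠ 0 ∧ fz a ≠ 0
  glued : ∀ a, IsGlued G (fo a) (fz a)
  node_unit : ∀ a ν, (G.nOo ν).ord (fo a) = 0 ∧ (G.n0 ν).ord (fz a) = 0
  pole : ∀ a, Qoo.ord (fo a) = -(nn a : ℤ) ∧ Q0.ord (fz a) = -(nn a : ℤ)
  zero_main : ∀ a, ordPair (fo a) (fz a) (Qs (jproj a)) = 1
  zero_extra : ∀ a, ∀ v ∈ Zx a, ordPair (fo a) (fz a) v = 1
  zero_else : ∀ a v, IsSm G v → v ≠ NPt.oo Qoo → v ≠ NPt.zero Q0 → v ≠ Qs (jproj a) →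
    v ∉ Zx a → ordPair (fo a) (fz a) v = 0
  sm_extra : ∀ a, ∀ v ∈ Zx a, IsSm G v
  qinf_notMem : ∀ a, NPt.oo Qoo ∉ Zx a ∧ NPt.zero Q0 ∉ Zx a
  qs_notMem : ∀ a i, Qs i ∉ Zx a
  disj : ∀ a b, a ≠ b → Disjoint (Zx a) (Zx b)
  card : ∀ a, (Zx a).card + 1 = 2 * nn a

/-- **[N-COORD]** (twin of FF-G2) every smooth point carries an unramified coordinate. -/
def UnrCoordN : Prop :=
  ∀ (N p : ℕ) (A : ValuationSubring Qb) (Foo F0 : Type) [Field Foo] [Field F0]
    [Algebra (kRes A) Foo] [Algebra (kRes A) F0] (ι : Type) (G : NodalData N A Foo F0 ι)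
    (g : ℕ), NodalSetup N p A G g → NodalPkg G →
    ∀ v : NP A Foo F0 ι, IsSm G v → ∃ (P : Place Qb (FLb N)) (t : FLb N),
      G.r P = v ∧ IsNodalUnrCoord G P t

/-- **[N-GS]** (twin of FF-G5; a statement about ONE function field) generic sections with
value `1` at finitely many given places ("nodes"): for `n` large there is a function with poles
only at `Qinf`, of exact order `n`, all of whose zeros are simple and lie outside a given finite
set, with value `1` at the nodes; moreover one simple zero can be prescribed at a place `Q`. -/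
def GenericSectionN : Prop :=
  ∀ (K F : Type) [Field K] [Field F] [Algebra K F] [IsAlgClosed K] (p : ℕ) [Fact p.Prime]
    [CharP K p] (g : ℕ), RiemannPackage K F g →
    (∃ x : F, FiniteDimensional (IntermediateField.adjoin K {x}) F ∧
      Algebra.IsSeparable (IntermediateField.adjoin K {x}) F) →
    ∀ (Qinf : Place K F) (nodes bad : Finset (Place K F)), Qinf ∉ nodes →
      (∃ n₀ : ℕ, ∀ n : ℕ, n₀ ≤ n →
        ∃ f : F, f ≠ 0 ∧ Qinf.ord f = -(n : ℤ) ∧
          (∀ v, v ≠ Qinf → 0 ≤ v.ord f ∧ v.ord f ≤ 1) ∧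
          (∀ v ∈ nodes, 1 ≤ v.ord (f - 1)) ∧
          ∀ v ∈ bad, v ≠ Qinf → v.ord f = 0) ∧
      ∀ Q : Place K F, Q ≠ Qinf → Q ∉ nodes →
        ∃ n₀ : ℕ, ∀ n : ℕ, n₀ ≤ n →
          ∃ f : F, f ≠ 0 ∧ Qinf.ord f = -(n : ℤ) ∧ Q.ord f = 1 ∧
            (∀ v, v ≠ Qinf → 0 ≤ v.ord f ∧ v.ord f ≤ 1) ∧
            (∀ v ∈ nodes, 1 ≤ v.ord (f - 1)) ∧
            ∀ v ∈ bad, v ≠ Q → v ≠ Qinf → v.ord f = 0

/-- **[N-AUX]** (twin of FF-G7-AUX) existence of the auxiliary sections. -/
def AuxSectionsN : Prop :=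
  ∀ (N p : ℕ) (A : ValuationSubring Qb) (Foo F0 : Type) [Field Foo] [Field F0]
    [Algebra (kRes A) Foo] [Algebra (kRes A) F0] (ι : Type) (G : NodalData N A Foo F0 ι)
    (g : ℕ), NodalSetup N p A G g → NodalPkg G →
    ∀ (O : Fin g → Place Qb (FLb N)) (t : Fin g → FLb N), IsNodalJacSystem G g O t →
      ∃ (Poo P0 : Place Qb (FLb N)) (Qoo : Place (kRes A) Foo) (Q0 : Place (kRes A) F0),
        G.r Poo = NPt.oo Qoo ∧ G.r P0 = NPt.zero Q0 ∧ IsUnrPlace A N Poo ∧
        IsUnrPlace A N P0 ∧ ∀ n₁ : ℕ,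
        ∃ (nn : Fin g ⊕ Fin g → ℕ) (u : Fin g ⊕ Fin g → nodalO G)
          (Zx : Fin g ⊕ Fin g → Finset (NP A Foo F0 ι)),
          (∀ a, n₁ ≤ nn a) ∧ (∀ a, IsUnrFn A N (u a : FLb N)) ∧
          (∀ a, (u a : FLb N) ∈ riemannRochSpace
            (Finsupp.single Poo (nn a : ℤ) + Finsupp.single P0 (nn a : ℤ))) ∧
          IsAuxFamilyN G (fun i => G.r (O i)) Qoo Q0 nn (fun a => redOoO G (u a))
            (fun a => red0O G (u a)) Zx

/-- **[N-BASIS]** (twin of FF-G7-BASIS) for `n` large the GLUED space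
`{(x, y) ∈ L(n Q_∞) × L(n Q_0) glued}` has a basis of reductions of inertia-fixed elements of
`O ∩ L(n P_∞ + n P_0)`, and its dimension is `2 n + 1 - g`. -/
def LiftBasisN : Prop :=
  ∀ (N p : ℕ) (A : ValuationSubring Qb) (Foo F0 : Type) [Field Foo] [Field F0]
    [Algebra (kRes A) Foo] [Algebra (kRes A) F0] (ι : Type) (G : NodalData N A Foo F0 ι)
    (g : ℕ), NodalSetup N p A G g → NodalPkg G →
    ∀ (Poo P0 : Place Qb (FLb N)) (Qoo : Place (kRes A) Foo) (Q0 : Place (kRes A) F0),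
      G.r Poo = NPt.oo Qoo → G.r P0 = NPt.zero Q0 → IsUnrPlace A N Poo → IsUnrPlace A N P0 →
      ∃ n₀ : ℕ, ∀ n : ℕ, n₀ ≤ n → ∃ (d : ℕ) (m : Fin d → nodalO G),
        (d : ℤ) = 2 * (n : ℤ) + 1 - (g : ℤ) ∧
        (∀ j, IsUnrFn A N (m j : FLb N)) ∧
        (∀ j, (m j : FLb N) ∈ riemannRochSpace
          (Finsupp.single Poo (n : ℤ) + Finsupp.single P0 (n : ℤ))) ∧
        (∀ c : Fin d → kRes A,
          ∑ j, algebraMap (kRes A) Foo (c j) * redOoO G (m j) = 0 →
          ∑ j, algebraMap (kRes A) F0 (c j) * red0O G (m j) = 0 → c = 0) ∧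
        ∀ x ∈ riemannRochSpace (Finsupp.single Qoo (n : ℤ)),
          ∀ y ∈ riemannRochSpace (Finsupp.single Q0 (n : ℤ)), IsGlued G x y →
            ∃ c : Fin d → kRes A,
              x = ∑ j, algebraMap (kRes A) Foo (c j) * redOoO G (m j) ∧
              y = ∑ j, algebraMap (kRes A) F0 (c j) * red0O G (m j)

/-- **[N-KERNEL]** (twin of FF-G7-REDKERNEL; a statement about the special fibre only).  A glued
pair with poles at most `(∑ nn a) (Q_∞ + Q_0)` vanishing at all `Qs i` and at all extra zeros of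
an auxiliary family is a constant multiple of `(∏ fo a, ∏ fz a)` (because of (NS1), (NS2)). -/
def RedKernelN : Prop :=
  ∀ (N : ℕ) (A : ValuationSubring Qb) (Foo F0 : Type) [Field Foo] [Field F0]
    [Algebra (kRes A) Foo] [Algebra (kRes A) F0] (ι : Type) (G : NodalData N A Foo F0 ι)
    (gOo gZ : ℕ), RiemannPackage (kRes A) Foo gOo → RiemannPackage (kRes A) F0 gZ →
    ∀ (g : ℕ) (Qs : Fin g → NP A Foo F0 ι), Function.Injective Qs → (∀ i, IsSm G (Qs i)) →
    ∀ (Boo : Divisor (kRes A) Foo) (B0 : Divisor (kRes A) F0), NodalBase G Boo B0 →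
      (∀ i Q, Qs i = NPt.oo Q → Boo Q = 1) → (∀ Q, (∀ i, Qs i ≠ NPt.oo Q) → Boo Q = 0) →
      (∀ i Q, Qs i = NPt.zero Q → B0 Q = 1) → (∀ Q, (∀ i, Qs i ≠ NPt.zero Q) → B0 Q = 0) →
      ∀ (Qoo : Place (kRes A) Foo) (Q0 : Place (kRes A) F0) (nn : Fin g ⊕ Fin g → ℕ)
        (fo : Fin g ⊕ Fin g → Foo) (fz : Fin g ⊕ Fin g → F0)
        (Zx : Fin g ⊕ Fin g → Finset (NP A Foo F0 ι)), IsAuxFamilyN G Qs Qoo Q0 nn fo fz Zx →
        ∀ (x : Foo) (y : F0),
          x ∈ riemannRochSpace (Finsupp.single Qoo (((∑ a, nn a : ℕ)) : ℤ)) →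
          y ∈ riemannRochSpace (Finsupp.single Q0 (((∑ a, nn a : ℕ)) : ℤ)) →
          IsGlued G x y → (∀ i, VanishAt x y (Qs i)) → (∀ a, ∀ v ∈ Zx a, VanishAt x y v) →
          ∃ c : kRes A, x = algebraMap (kRes A) Foo c * ∏ a, fo a ∧
            y = algebraMap (kRes A) F0 c * ∏ a, fz a

/-- **[N-MOVING]** (twin of FF-G7-MOVING).  For auxiliary sections `u a` and points `Pt s a`
with approximable coordinates: the values `α a s = u_a(Pt s a)` are approximable nonunits, and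
for every `v ∈ Zx a` the function `u_a - α a s` has exactly one zero `E a v s` in the disc of
`v`; the value at `E a v s` of ANY unramified function, integral on the component of `v`,
without poles on the disc of `v`, is approximable. -/
def MovingZerosN : Prop :=
  ∀ (N p : ℕ) (A : ValuationSubring Qb) (Foo F0 : Type) [Field Foo] [Field F0]
    [Algebra (kRes A) Foo] [Algebra (kRes A) F0] (ι : Type) (G : NodalData N A Foo F0 ι)
    (g : ℕ), NodalSetup N p A G g → NodalPkg G →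
    ∀ (O : Fin g → Place Qb (FLb N)) (t : Fin g → FLb N), IsNodalJacSystem G g O t →
    ∀ (S : Type) [Finite S] (n : ℕ) (x : S → Fin n → Qb), (∀ s i, x s i ∈ A.nonunits) →
    ∀ (Pt : S → Fin g ⊕ Fin g → Place Qb (FLb N)) (τ : Fin g ⊕ Fin g → S → Qb),
      (∀ s a, G.r (Pt s a) = G.r (O (jproj a))) →
      (∀ s a, HasValue (Pt s a) (t (jproj a)) (τ a s)) →
      (∀ a, IsApprox p A x (τ a)) →
    ∀ (Poo P0 : Place Qb (FLb N)) (Qoo : Place (kRes A) Foo) (Q0 : Place (kRes A) F0)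
      (nn : Fin g ⊕ Fin g → ℕ) (u : Fin g ⊕ Fin g → nodalO G)
      (Zx : Fin g ⊕ Fin g → Finset (NP A Foo F0 ι)),
      G.r Poo = NPt.oo Qoo → G.r P0 = NPt.zero Q0 →
      (∀ a, IsUnrFn A N (u a : FLb N)) →
      (∀ a, (u a : FLb N) ∈ riemannRochSpace
        (Finsupp.single Poo (nn a : ℤ) + Finsupp.single P0 (nn a : ℤ))) →
      IsAuxFamilyN G (fun i => G.r (O i)) Qoo Q0 nn (fun a => redOoO G (u a))
        (fun a => red0O G (u a)) Zx →
      ∃ (α : Fin g ⊕ Fin g → S → A)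
        (E : Fin g ⊕ Fin g → NP A Foo F0 ι → S → Place Qb (FLb N)),
        (∀ s a, HasValue (Pt s a) (u a : FLb N) (α a s : Qb)) ∧
        (∀ a, IsApprox p A x (fun s => (α a s : Qb))) ∧
        (∀ a s, (α a s : Qb) ∈ A.nonunits) ∧
        (∀ a, ∀ v ∈ Zx a, ∀ s, G.r (E a v s) = v) ∧
        (∀ a, ∀ v ∈ Zx a, ∀ s,
          HasValue (E a v s) ((u a : FLb N) - algebraMap Qb (FLb N) (α a s : Qb)) 0) ∧
        (∀ a, ∀ v ∈ Zx a, ∀ s, ∀ P1, G.r P1 = v →
          HasValue P1 ((u a : FLb N) - algebraMap Qb (FLb N) (α a s : Qb)) 0 → P1 = E a v s) ∧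
        (∀ a, ∀ v ∈ Zx a, ∀ y : FLb N, IsUnrFn A N y → InComp G v y →
          (∀ P1, G.r P1 = v → 0 ≤ P1.ord y) →
          ∀ val : S → Qb, (∀ s, HasValue (E a v s) y (val s)) → IsApprox p A x val)

/-- **[N-F2]** (twin of FF-G7-F2FAM, first half of the two-step). -/
def F2FamilyN : Prop :=
  ∀ (N p : ℕ) (A : ValuationSubring Qb) (Foo F0 : Type) [Field Foo] [Field F0]
    [Algebra (kRes A) Foo] [Algebra (kRes A) F0] (ι : Type) (G : NodalData N A Foo F0 ι)
    (g : ℕ), NodalSetup N p A G g → NodalPkg G →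
    ∀ (O : Fin g → Place Qb (FLb N)) (t : Fin g → FLb N), IsNodalJacSystem G g O t → 0 < g →
    ∀ (S : Type) [Finite S] (n : ℕ) (x : S → Fin n → Qb), (∀ s i, x s i ∈ A.nonunits) →
    ∀ (Pt : S → Fin g ⊕ Fin g → Place Qb (FLb N)) (τ : Fin g ⊕ Fin g → S → Qb),
      (∀ s a, G.r (Pt s a) = G.r (O (jproj a))) →
      (∀ s a, HasValue (Pt s a) (t (jproj a)) (τ a s)) →
      (∀ a, IsApprox p A x (τ a)) →
      ∃ (Poo P0 : Place Qb (FLb N)) (Qoo : Place (kRes A) Foo) (Q0 : Place (kRes A) F0)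
        (nn : Fin g ⊕ Fin g → ℕ) (u : Fin g ⊕ Fin g → nodalO G)
        (Zx : Fin g ⊕ Fin g → Finset (NP A Foo F0 ι)) (α : Fin g ⊕ Fin g → S → A)
        (d : ℕ) (m : Fin d → nodalO G) (κ : Fin d → S → A),
        G.r Poo = NPt.oo Qoo ∧ G.r P0 = NPt.zero Q0 ∧
        (∀ a, (u a : FLb N) ∈ riemannRochSpace
          (Finsupp.single Poo (nn a : ℤ) + Finsupp.single P0 (nn a : ℤ))) ∧
        IsAuxFamilyN G (fun i => G.r (O i)) Qoo Q0 nn (fun a => redOoO G (u a))
          (fun a => red0O G (u a)) Zx ∧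
        (∀ s a, HasValue (Pt s a) (u a : FLb N) (α a s : Qb)) ∧
        (∀ j, IsUnrFn A N (m j : FLb N)) ∧
        (∀ j, (m j : FLb N) ∈ riemannRochSpace
          (Finsupp.single Poo (((∑ a, nn a : ℕ)) : ℤ) +
            Finsupp.single P0 (((∑ a, nn a : ℕ)) : ℤ))) ∧
        (∀ j, IsApprox p A x (fun s => (κ j s : Qb))) ∧
        (∀ s, ∃ γ : kRes A, γ ≠ 0 ∧
          (∑ j, algebraMap (kRes A) Foo (IsLocalRing.residue A (κ j s)) * redOoO G (m j) =
            algebraMap (kRes A) Foo γ * ∏ a, redOoO G (u a)) ∧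
          (∑ j, algebraMap (kRes A) F0 (IsLocalRing.residue A (κ j s)) * red0O G (m j) =
            algebraMap (kRes A) F0 γ * ∏ a, red0O G (u a))) ∧
        (∀ s i, HasValue (O i)
          (∑ j, algebraMap Qb (FLb N) (κ j s : Qb) * (m j : FLb N)) 0) ∧
        (∀ s a, ∀ v ∈ Zx a, ∀ P1, G.r P1 = v →
          HasValue P1 ((u a : FLb N) - algebraMap Qb (FLb N) (α a s : Qb)) 0 →
          HasValue P1 (∑ j, algebraMap Qb (FLb N) (κ j s : Qb) * (m j : FLb N)) 0)

/-- **[N-DIV]** (twin of FF-G7-DIV; one parameter value).  Let `Pt a` be a point of the disc of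
`O (jproj a)`, `α a = u_a(Pt a)`, and let `F2 ∈ O ∩ L(n' (P_∞ + P_0))` have reductions
`γ ∏ red u_a` on BOTH components (same `γ ≠ 0`) and vanish at all `O i` and at the zeros of
`u_a - α a` in the discs of the points of `Zx a`.  Then there are `P'' i` in the disc of `O i`
such that `∑ (P'' i - O i) - ∑ (Pt a - O (jproj a))` is principal and `F2 / t i` vanishes at
`P'' i`. -/
def ResidualDivisorN : Prop :=
  ∀ (N p : ℕ) (A : ValuationSubring Qb) (Foo F0 : Type) [Field Foo] [Field F0]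
    [Algebra (kRes A) Foo] [Algebra (kRes A) F0] (ι : Type) (G : NodalData N A Foo F0 ι)
    (g : ℕ), NodalSetup N p A G g →
    ∀ (O : Fin g → Place Qb (FLb N)) (t : Fin g → FLb N), IsNodalJacSystem G g O t →
    ∀ (Poo P0 : Place Qb (FLb N)) (Qoo : Place (kRes A) Foo) (Q0 : Place (kRes A) F0)
      (nn : Fin g ⊕ Fin g → ℕ) (u : Fin g ⊕ Fin g → nodalO G)
      (Zx : Fin g ⊕ Fin g → Finset (NP A Foo F0 ι)),
      G.r Poo = NPt.oo Qoo → G.r P0 = NPt.zero Q0 →
      (∀ a, (u a : FLb N) ∈ riemannRochSpace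
        (Finsupp.single Poo (nn a : ℤ) + Finsupp.single P0 (nn a : ℤ))) →
      IsAuxFamilyN G (fun i => G.r (O i)) Qoo Q0 nn (fun a => redOoO G (u a))
        (fun a => red0O G (u a)) Zx →
      ∀ (Pt : Fin g ⊕ Fin g → Place Qb (FLb N)) (α : Fin g ⊕ Fin g → A),
        (∀ a, G.r (Pt a) = G.r (O (jproj a))) →
        (∀ a, HasValue (Pt a) (u a : FLb N) (α a : Qb)) →
        ∀ F2 : nodalO G,
          (F2 : FLb N) ∈ riemannRochSpace
            (Finsupp.single Poo (((∑ a, nn a : ℕ)) : ℤ) +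
              Finsupp.single P0 (((∑ a, nn a : ℕ)) : ℤ)) →
          (∃ γ : kRes A, γ ≠ 0 ∧
            redOoO G F2 = algebraMap (kRes A) Foo γ * ∏ a, redOoO G (u a) ∧
            red0O G F2 = algebraMap (kRes A) F0 γ * ∏ a, red0O G (u a)) →
          (∀ i, HasValue (O i) (F2 : FLb N) 0) →
          (∀ a, ∀ v ∈ Zx a, ∀ P1, G.r P1 = v →
            HasValue P1 ((u a : FLb N) - algebraMap Qb (FLb N) (α a : Qb)) 0 →
            HasValue P1 (F2 : FLb N) 0) →
          ∃ P'' : Fin g → Place Qb (FLb N), (∀ i, G.r (P'' i) = G.r (O i)) ∧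
            (∀ i, HasValue (P'' i) ((F2 : FLb N) / t i) 0) ∧
            ∃ w : FLb N, w ≠ 0 ∧ ∀ P : Place Qb (FLb N),
              P.ord w = ((∑ i, (Finsupp.single (P'' i) (1 : ℤ) - Finsupp.single (O i) 1)
                - ∑ a, (Finsupp.single (Pt a) (1 : ℤ) - Finsupp.single (O (jproj a)) 1) :
                  Divisor Qb (FLb N))) P

/-- **[ADD]** the target of block (G-B), in helper92's form. -/
abbrev AddApproxN : Prop :=
  NodalAddApproxStatement (fun _ _ _ _ _ _ _ _ _ G => NodalPkg G)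

end Nodal

end Fermat.Agent.H94.ORD
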