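/-
P-ORD (S33), block (G-B), helper94: GLUE between the one-component local blocks (PART C of
`JacInterfaces`) and the nodal global blocks (PART N).

* `compSetupOo`, `compSetupZero` : the two components of a nodal setup are `CompSetup`s;
* `ordC G v y` : the order at the smooth point `v` of the reduction of `y` on the component
  carrying `v`;
* nodal forms of the local blocks: `taylorApprox_nodal`, `rootApprox_nodal`, `discZero_nodal`,
  `value_nonunit_nodal`, `value_mem_nodal`.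
-/
import Fermat.Agent.H94.ORD.JacInterfaces
import Fermat.Agent.H94.FF.Val

set_option autoImplicit false
set_option synthInstance.maxHeartbeats 400000
set_option maxHeartbeats 1600000
set_option linter.style.haveILetI false
set_option linter.unusedSectionVars false

noncomputable section

open AlgebraicCurve ModularCurve Fermat.Agent.H27.ESD

namespace Fermat.Agent.H94.ORD

open Fermat.Agent.H10.FF Fermat.Agent.H72.FF Fermat.Agent.H18.ORD Fermat.Agent.H92.ORD
  Fermat.Agent.H94.FF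

variable {N p : ℕ} {A : ValuationSubring Qb} {Foo F0 : Type} [Field Foo] [Field F0]
  [Algebra (kRes A) Foo] [Algebra (kRes A) F0] {ι : Type} {G : NodalData N A Foo F0 ι} {g : ℕ}

theorem npt_oo_injective : Function.Injective
    (NPt.oo : Place (kRes A) Foo → NP A Foo F0 ι) := by
  intro a b h
  injection h

theorem npt_zero_injective : Function.Injective
    (NPt.zero : Place (kRes A) F0 → NP A Foo F0 ι) := by
  intro a b h
  injection h

/-- the component `C_∞` of a nodal setup -/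
theorem compSetupOo (hS : NodalSetup N p A G g) :
    CompSetup N p A G.Voo G.redOo G.r NPt.oo (fun Q => Q ∉ Set.range G.nOo) where
  prime := hS.prime
  liesOver := hS.liesOver
  comp := hS.rv.compOo hS.pkgL.principal
  inv := hS.rv.inv_oo
  degL := hS.pkgL.deg_one
  ptInj := npt_oo_injective

/-- the component `C_0` of a nodal setup -/
theorem compSetupZero (hS : NodalSetup N p A G g) :
    CompSetup N p A G.V0 G.red0 G.r NPt.zero (fun Q => Q ∉ Set.range G.n0) where
  prime := hS.prime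
  liesOver := hS.liesOver
  comp := hS.rv.compZero hS.pkgL.principal
  inv := hS.rv.inv_zero
  degL := hS.pkgL.deg_one
  ptInj := npt_zero_injective

/-- the specialisation of a place is smooth iff it is not a node -/
theorem isSm_r_iff (H : NodalRvHyp p G) (P : Place Qb (FLb N)) :
    IsSm G (G.r P) ↔ ∀ ν, G.r P ≠ NPt.node ν := by
  constructor
  · intro h ν hν
    rw [hν] at h
    exact h
  · intro h
    rcases hP : G.r P with Q | Q | ν
    · exact H.r_oo P Q hP
    · exact H.r_zero P Q hP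
    · exact absurd hP (h ν)

theorem nodalCoord_isSm (H : NodalRvHyp p G) {P : Place Qb (FLb N)} {t : FLb N}
    (hc : IsNodalUnrCoord G P t) : IsSm G (G.r P) :=
  (isSm_r_iff H P).mpr hc.smooth

/-- the order at the smooth point `v` of the reduction of `y` on the component of `v` -/
def ordC (G : NodalData N A Foo F0 ι) (v : NP A Foo F0 ι) (y : FLb N) : ℤ := by
  classical
  exact match v with
  | NPt.oo Q => if h : y ∈ G.Voo then Q.ord (G.redOo ⟨y, h⟩) else 0
  | NPt.zero Q => if h : y ∈ G.V0 then Q.ord (G.red0 ⟨y, h⟩) else 0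
  | NPt.node _ => 0

theorem ordC_oo (Q : Place (kRes A) Foo) (y : FLb N) (h : y ∈ G.Voo) :
    ordC G (NPt.oo Q) y = Q.ord (G.redOo ⟨y, h⟩) := by
  unfold ordC
  simp only [dif_pos h]

theorem ordC_zero (Q : Place (kRes A) F0) (y : FLb N) (h : y ∈ G.V0) :
    ordC G (NPt.zero Q) y = Q.ord (G.red0 ⟨y, h⟩) := by
  unfold ordC
  simp only [dif_pos h]

theorem mem_Voo_of_mem_nodalO {y : FLb N} (h : y ∈ nodalO G) : y ∈ G.Voo := h.1

theorem mem_V0_of_mem_nodalO {y : FLb N} (h : y ∈ nodalO G) : y ∈ G.V0 := h.2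

theorem redOoO_apply (u : nodalO G) : redOoO G u = G.redOo ⟨(u : FLb N), u.2.1⟩ := rfl

theorem red0O_apply (u : nodalO G) : red0O G u = G.red0 ⟨(u : FLb N), u.2.2⟩ := rfl

theorem inComp_of_mem (v : NP A Foo F0 ι) (hv : IsSm G v) {y : FLb N} (h : y ∈ nodalO G) :
    InComp G v y := by
  rcases v with Q | Q | ν
  · exact h.1
  · exact h.2
  · exact hv.elim

theorem ordC_eq_ordPair (v : NP A Foo F0 ι) (u : nodalO G) :
    ordC G v (u : FLb N) = ordPair (redOoO G u) (red0O G u) v := by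
  rcases v with Q | Q | ν
  · rw [ordC_oo Q _ u.2.1]
    rfl
  · rw [ordC_zero Q _ u.2.2]
    rfl
  · rfl

/-- constants of `A` are doubly integral -/
def nodalConst (H : NodalRvHyp p G) (a : A) : nodalO G :=
  ⟨algebraMap Qb (FLb N) (a : Qb), (H.const_oo _).mpr a.2, (H.const_zero _).mpr a.2⟩

@[simp]
theorem coe_nodalConst (H : NodalRvHyp p G) (a : A) :
    ((nodalConst H a : nodalO G) : FLb N) = algebraMap Qb (FLb N) (a : Qb) := rfl

theorem redOoO_nodalConst (H : NodalRvHyp p G) (a : A) :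
    redOoO G (nodalConst H a) = algebraMap (kRes A) Foo (IsLocalRing.residue A a) :=
  H.red_const_oo a _

theorem red0O_nodalConst (H : NodalRvHyp p G) (a : A) :
    red0O G (nodalConst H a) = algebraMap (kRes A) F0 (IsLocalRing.residue A a) :=
  H.red_const_zero a _

/-! ### values on one component (twins of `Fermat.Agent.H94.FF.Val`, section Gauss) -/

section CompVal

variable {Fk : Type} [Field Fk] [Algebra (kRes A) Fk] {X : Type} {V : Subring (FLb N)}
  {red : V →+* Fk} {r : Place Qb (FLb N) → X} {pt : Place (kRes A) Fk → X}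
  {smooth : Place (kRes A) Fk → Prop}

theorem red_constC (hS : CompSetup N p A V red r pt smooth) (a : A) :
    red (constC hS a) = algebraMap (kRes A) Fk (IsLocalRing.residue A a) :=
  hS.comp.red_const a _

@[simp]
theorem coe_constC (hS : CompSetup N p A V red r pt smooth) (a : A) :
    ((constC hS a : V) : FLb N) = algebraMap Qb (FLb N) (a : Qb) := rfl

/-- constants of `V` are integral -/
theorem mem_of_algebraMap_memC (hS : CompSetup N p A V red r pt smooth) {a : Qb}
    (ha : algebraMap Qb (FLb N) a ∈ V) : a ∈ A := by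
  by_contra hna
  have ha0 : a ≠ 0 := by
    rintro rfl
    exact hna A.zero_mem
  have hinv : a⁻¹ ∈ A := (A.mem_or_inv_mem a).resolve_left hna
  have hnu : ¬ IsUnit (⟨a⁻¹, hinv⟩ : A) := by
    intro hu
    obtain ⟨v, hv⟩ := hu.exists_right_inv
    have h1 : a⁻¹ * (v : Qb) = 1 := congrArg Subtype.val hv
    have hva : (v : Qb) = a := by
      have := congrArg (fun x => a * x) h1
      simp only [← mul_assoc, mul_inv_cancel₀ ha0, one_mul, mul_one] at this
      exact this
    exact hna (hva ▸ v.2)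
  have h0 : IsLocalRing.residue A ⟨a⁻¹, hinv⟩ = 0 := (hS.comp.hker _).mpr hnu
  have hmul : (⟨algebraMap Qb (FLb N) a, ha⟩ : V) * constC hS ⟨a⁻¹, hinv⟩ = 1 := by
    apply Subtype.ext
    show algebraMap Qb (FLb N) a * algebraMap Qb (FLb N) a⁻¹ = 1
    rw [← map_mul, mul_inv_cancel₀ ha0, map_one]
  have h2 := congrArg red hmul
  rw [map_mul, red_constC, h0, map_zero, mul_zero, map_one] at h2
  exact zero_ne_one h2

/-- **Value lemma** (wrapping `CompHyp.value_lemma`). -/
theorem hasValue_redC (hS : CompSetup N p A V red r pt smooth) (y : V)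
    (Q : Place (kRes A) Fk) (hQ : smooth Q) (hnp : ∀ P1, r P1 = pt Q → 0 ≤ P1.ord (y : FLb N))
    (P : Place Qb (FLb N)) (hP : r P = pt Q) (c : Qb) (hc : HasValue P (y : FLb N) c) :
    ∃ hcA : c ∈ A, HasVal Q (red y) (IsLocalRing.residue A ⟨c, hcA⟩) := by
  rcases hc with hc | hc
  · have hmem : algebraMap Qb (FLb N) c ∈ V := hc ▸ y.2
    have hcA := mem_of_algebraMap_memC hS hmem
    refine ⟨hcA, Or.inl ?_⟩
    have : y = constC hS ⟨c, hcA⟩ := Subtype.ext hc
    rw [this, red_constC]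
  · by_cases hyc : (y : FLb N) = algebraMap Qb (FLb N) c
    · have hmem : algebraMap Qb (FLb N) c ∈ V := hyc ▸ y.2
      have hcA := mem_of_algebraMap_memC hS hmem
      refine ⟨hcA, Or.inl ?_⟩
      have : y = constC hS ⟨c, hcA⟩ := Subtype.ext hyc
      rw [this, red_constC]
    · obtain ⟨hcA, h⟩ := hS.comp.value_lemma y Q hQ hnp P hP c hc hyc
      exact ⟨hcA, h⟩

/-- the value of an element of `V` which reduces to a function vanishing at `Q` is a
nonunit -/
theorem hasValue_nonunitC (hS : CompSetup N p A V red r pt smooth) (y : V)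
    (Q : Place (kRes A) Fk) (hQs : smooth Q)
    (hnp : ∀ P1, r P1 = pt Q → 0 ≤ P1.ord (y : FLb N)) (hQ : HasVal Q (red y) 0)
    (P : Place Qb (FLb N)) (hP : r P = pt Q) (c : Qb) (hc : HasValue P (y : FLb N) c) :
    c ∈ A.nonunits := by
  obtain ⟨hcA, h⟩ := hasValue_redC hS y Q hQs hnp P hP c hc
  have h0 : IsLocalRing.residue A ⟨c, hcA⟩ = 0 := h.unique hQ
  have hnu : ¬ IsUnit (⟨c, hcA⟩ : A) := (hS.comp.hker _).mp h0
  rw [ValuationSubring.mem_nonunits_iff_exists_mem_maximalIdeal]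
  exact ⟨hcA, (IsLocalRing.mem_maximalIdeal _).mpr hnu⟩

/-- the coordinate of a point of the disc is a nonunit -/
theorem IsUnrCoordC.value_nonunit (hS : CompSetup N p A V red r pt smooth)
    {Q : Place (kRes A) Fk} (hQs : smooth Q) {P : Place Qb (FLb N)} {t : V}
    (ht : IsUnrCoordC A N V red r pt Q P t) (P1 : Place Qb (FLb N)) (hP1 : r P1 = pt Q)
    (c : Qb) (hc : HasValue P1 (t : FLb N) c) : c ∈ A.nonunits := by
  refine hasValue_nonunitC hS t Q hQs ht.nopole ?_ P1 hP1 c hc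
  rw [hasVal_zero_iff]
  right
  rw [ht.simple]

/-- the value of an unramified element of `V` at an unramified place (no poles on its disc)
lies in `R` -/
theorem isUnr_value_mem_unrIntC (hS : CompSetup N p A V red r pt smooth) (y : V)
    (Q : Place (kRes A) Fk) (hQs : smooth Q)
    (P : Place Qb (FLb N)) (hPQ : r P = pt Q)
    (hnp : ∀ P1, r P1 = pt Q → 0 ≤ P1.ord (y : FLb N))
    (hP : IsUnrPlace A N P) (hy : IsUnrFn A N (y : FLb N)) (c : Qb)
    (h : HasValue P (y : FLb N) c) : c ∈ unrInt A := by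
  obtain ⟨hcA, -⟩ := hasValue_redC hS y Q hQs hnp P hPQ c h
  exact ⟨hcA, isUnr_value_fixed hP hy h⟩

end CompVal

/-! ### nodal forms of the local blocks -/

/-- the unramified coordinate of a nodal system, on the component `C_∞` -/
theorem nodalCoordOo {P : Place Qb (FLb N)} {t : FLb N}
    (hc : IsNodalUnrCoord G P t) {Q : Place (kRes A) Foo} (hQ : G.r P = NPt.oo Q) :
    ∃ h : t ∈ G.Voo, IsUnrCoordC A N G.Voo G.redOo G.r NPt.oo Q P ⟨t, h⟩ := by
  obtain ⟨h, hs⟩ := hc.simple_oo Q hQ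
  exact ⟨h, ⟨hQ, hc.unrP, hc.unrT, hc.zero, hs, fun P1 h1 => hc.nopole P1 (h1.trans hQ.symm)⟩⟩

/-- the unramified coordinate of a nodal system, on the component `C_0` -/
theorem nodalCoordZero {P : Place Qb (FLb N)} {t : FLb N}
    (hc : IsNodalUnrCoord G P t) {Q : Place (kRes A) F0} (hQ : G.r P = NPt.zero Q) :
    ∃ h : t ∈ G.V0, IsUnrCoordC A N G.V0 G.red0 G.r NPt.zero Q P ⟨t, h⟩ := by
  obtain ⟨h, hs⟩ := hc.simple_zero Q hQ
  exact ⟨h, ⟨hQ, hc.unrP, hc.unrT, hc.zero, hs, fun P1 h1 => hc.nopole P1 (h1.trans hQ.symm)⟩⟩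

/-- **nodal T-APPROX** -/
theorem taylorApprox_nodal (hTA : TaylorApproxC) (hS : NodalSetup N p A G g)
    {P : Place Qb (FLb N)} {t : FLb N} (hc : IsNodalUnrCoord G P t)
    (y : FLb N) (hyU : IsUnrFn A N y) (hyC : InComp G (G.r P) y)
    (hnp : ∀ P1, G.r P1 = G.r P → 0 ≤ P1.ord y)
    (S : Type) [Finite S] (n : ℕ) (x : S → Fin n → Qb) (hx : ∀ s i, x s i ∈ A.nonunits)
    (pts : S → Place Qb (FLb N)) (τ v : S → Qb) (hpts : ∀ s, G.r (pts s) = G.r P)
    (hτ : ∀ s, HasValue (pts s) t (τ s)) (hv : ∀ s, HasValue (pts s) y (v s))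
    (happ : IsApprox p A x τ) : IsApprox p A x v := by
  rcases hP : G.r P with Q | Q | ν
  · obtain ⟨h, hcc⟩ := nodalCoordOo hc hP
    have hsm : Q ∉ Set.range G.nOo := hS.rv.r_oo P Q hP
    rw [hP] at hyC
    exact hTA N p A Foo _ G.Voo G.redOo G.r NPt.oo _ (compSetupOo hS) Q hsm P ⟨t, h⟩ hcc
      ⟨y, hyC⟩ hyU (fun P1 h1 => hnp P1 (h1.trans hP.symm)) S n x hx pts τ v
      (fun s => (hpts s).trans hP) hτ hv happ
  · obtain ⟨h, hcc⟩ := nodalCoordZero hc hP
    have hsm : Q ∉ Set.range G.n0 := hS.rv.r_zero P Q hP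
    rw [hP] at hyC
    exact hTA N p A F0 _ G.V0 G.red0 G.r NPt.zero _ (compSetupZero hS) Q hsm P ⟨t, h⟩ hcc
      ⟨y, hyC⟩ hyU (fun P1 h1 => hnp P1 (h1.trans hP.symm)) S n x hx pts τ v
      (fun s => (hpts s).trans hP) hτ hv happ
  · exact absurd hP (hc.smooth ν)

/-- **nodal DISC-ZERO** -/
theorem discZero_nodal (hDZ : DiscZeroC) (hS : NodalSetup N p A G g)
    (v : NP A Foo F0 ι) (hv : IsSm G v) (y : FLb N) (hyC : InComp G v y)
    (h1 : ordC G v y = 1) (hnp : ∀ P1, G.r P1 = v → 0 ≤ P1.ord y) :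
    ∃ P, G.r P = v ∧ P.ord y = 1 ∧ ∀ P1, G.r P1 = v → P1 ≠ P → P1.ord y = 0 := by
  rcases v with Q | Q | ν
  · rw [ordC_oo Q y hyC] at h1
    exact hDZ N p A Foo _ G.Voo G.redOo G.r NPt.oo _ (compSetupOo hS) Q hv ⟨y, hyC⟩ h1 hnp
  · rw [ordC_zero Q y hyC] at h1
    exact hDZ N p A F0 _ G.V0 G.red0 G.r NPt.zero _ (compSetupZero hS) Q hv ⟨y, hyC⟩ h1 hnp
  · exact hv.elim

/-- the value of `y` at a point of the disc of `v` is integral, and it is a nonunit if the
reduction of `y` vanishes at `v` -/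
theorem value_mem_nodal (hS : NodalSetup N p A G g)
    (v : NP A Foo F0 ι) (hv : IsSm G v) (y : FLb N) (hyC : InComp G v y)
    (hnp : ∀ P1, G.r P1 = v → 0 ≤ P1.ord y) (P : Place Qb (FLb N)) (hP : G.r P = v) (c : Qb)
    (hc : HasValue P y c) : c ∈ A := by
  rcases hc with hc | hc
  · -- `y` is the constant `c`
    rcases v with Q | Q | ν
    · exact (hS.rv.const_oo c).mp (hc ▸ hyC)
    · exact (hS.rv.const_zero c).mp (hc ▸ hyC)
    · exact hv.elim
  · by_cases hyc : y = algebraMap Qb (FLb N) c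
    · rcases v with Q | Q | ν
      · exact (hS.rv.const_oo c).mp (hyc ▸ hyC)
      · exact (hS.rv.const_zero c).mp (hyc ▸ hyC)
      · exact hv.elim
    · rcases v with Q | Q | ν
      · exact ((compSetupOo hS).comp.value_lemma ⟨y, hyC⟩ Q hv hnp P hP c hc hyc).1
      · exact ((compSetupZero hS).comp.value_lemma ⟨y, hyC⟩ Q hv hnp P hP c hc hyc).1
      · exact hv.elim


/-- "the reduction of `y` on the component of `v` has the value `κ` at `v`" -/
def RedVal (G : NodalData N A Foo F0 ι) (v : NP A Foo F0 ι) (y : FLb N) (κ : kRes A) : Prop :=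
  match v with
  | NPt.oo Q => ∃ h : y ∈ G.Voo, HasVal Q (G.redOo ⟨y, h⟩) κ
  | NPt.zero Q => ∃ h : y ∈ G.V0, HasVal Q (G.red0 ⟨y, h⟩) κ
  | NPt.node _ => False

/-- **nodal value lemma** -/
theorem hasValue_red_nodal (hS : NodalSetup N p A G g)
    (v : NP A Foo F0 ι) (hv : IsSm G v) (y : FLb N) (hyC : InComp G v y)
    (hnp : ∀ P1, G.r P1 = v → 0 ≤ P1.ord y) (P : Place Qb (FLb N)) (hP : G.r P = v) (c : Qb)
    (hc : HasValue P y c) : ∃ hcA : c ∈ A, RedVal G v y (IsLocalRing.residue A ⟨c, hcA⟩) := by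
  rcases v with Q | Q | ν
  · obtain ⟨hcA, h⟩ := hasValue_redC (compSetupOo hS) ⟨y, hyC⟩ Q hv hnp P hP c hc
    exact ⟨hcA, hyC, h⟩
  · obtain ⟨hcA, h⟩ := hasValue_redC (compSetupZero hS) ⟨y, hyC⟩ Q hv hnp P hP c hc
    exact ⟨hcA, hyC, h⟩
  · exact hv.elim

/-- the value at a point of the disc of `v` of a function whose reduction vanishes at `v` is a
nonunit -/
theorem value_nonunit_nodal (hS : NodalSetup N p A G g)
    (v : NP A Foo F0 ι) (hv : IsSm G v) (y : FLb N) (hyC : InComp G v y)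
    (hnp : ∀ P1, G.r P1 = v → 0 ≤ P1.ord y) (h1 : 1 ≤ ordC G v y)
    (P : Place Qb (FLb N)) (hP : G.r P = v) (c : Qb) (hc : HasValue P y c) :
    c ∈ A.nonunits := by
  rcases v with Q | Q | ν
  · rw [ordC_oo Q y hyC] at h1
    exact hasValue_nonunitC (compSetupOo hS) ⟨y, hyC⟩ Q hv hnp
      ((hasVal_zero_iff Q).mpr (Or.inr h1)) P hP c hc
  · rw [ordC_zero Q y hyC] at h1
    exact hasValue_nonunitC (compSetupZero hS) ⟨y, hyC⟩ Q hv hnp
      ((hasVal_zero_iff Q).mpr (Or.inr h1)) P hP c hc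
  · exact hv.elim

/-- the value of an unramified function, integral on the component of `v`, at an unramified
place of the disc of `v` lies in `R` -/
theorem isUnr_value_mem_unrInt_nodal (hS : NodalSetup N p A G g)
    (v : NP A Foo F0 ι) (hv : IsSm G v) (y : FLb N) (hyC : InComp G v y)
    (P : Place Qb (FLb N)) (hPv : G.r P = v) (hnp : ∀ P1, G.r P1 = v → 0 ≤ P1.ord y)
    (hP : IsUnrPlace A N P) (hy : IsUnrFn A N y) (c : Qb) (h : HasValue P y c) :
    c ∈ unrInt A :=
  ⟨value_mem_nodal hS v hv y hyC hnp P hPv c h, isUnr_value_fixed hP hy h⟩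

/-- **nodal ROOT-APPROX**, for a family `F(s) = ∑ κ_j(s) y_j` given as functions. -/
theorem rootApprox_nodal (hRA : RootApproxC) (hS : NodalSetup N p A G g)
    {P : Place Qb (FLb N)} {t : FLb N} (hc : IsNodalUnrCoord G P t)
    (d : ℕ) (y : Fin d → FLb N) (hyU : ∀ j, IsUnrFn A N (y j))
    (hyC : ∀ j, InComp G (G.r P) (y j))
    (hnp : ∀ j P1, G.r P1 = G.r P → 0 ≤ P1.ord (y j))
    (S : Type) [Finite S] (n : ℕ) (x : S → Fin n → Qb) (hx : ∀ s i, x s i ∈ A.nonunits)
    (κ : Fin d → S → A) (hκ : ∀ j, IsApprox p A x (fun s => (κ j s : Qb)))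
    (hone : ∀ s, ordC G (G.r P) (∑ j, algebraMap Qb (FLb N) (κ j s : Qb) * y j) = 1)
    (pts : S → Place Qb (FLb N)) (τ : S → Qb) (hpts : ∀ s, G.r (pts s) = G.r P)
    (hτ : ∀ s, HasValue (pts s) t (τ s))
    (hzero : ∀ s, HasValue (pts s) (∑ j, algebraMap Qb (FLb N) (κ j s : Qb) * y j) 0) :
    IsApprox p A x τ := by
  rcases hP : G.r P with Q | Q | ν
  · obtain ⟨h, hcc⟩ := nodalCoordOo hc hP
    have hsm : Q ∉ Set.range G.nOo := hS.rv.r_oo P Q hP
    rw [hP] at hyC
    have hcoe : ∀ s, (((∑ j, constC (compSetupOo hS) (κ j s) *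
        (⟨y j, hyC j⟩ : G.Voo) : G.Voo)) : FLb N) =
        ∑ j, algebraMap Qb (FLb N) (κ j s : Qb) * y j := by
      intro s
      push_cast
      rfl
    refine hRA N p A Foo _ G.Voo G.redOo G.r NPt.oo _ (compSetupOo hS) Q hsm P ⟨t, h⟩ hcc d
      (fun j => ⟨y j, hyC j⟩) hyU (fun j P1 h1 => hnp j P1 (h1.trans hP.symm)) S n x hx κ hκ
      ?_ pts τ (fun s => (hpts s).trans hP) hτ ?_
    · intro s
      have := hone s
      rw [hP, ordC_oo Q _ (hcoe s ▸ (∑ j, constC (compSetupOo hS) (κ j s) *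
        (⟨y j, hyC j⟩ : G.Voo) : G.Voo).2)] at this
      convert this using 3
      exact Subtype.ext (hcoe s)
    · intro s
      rw [hcoe s]
      exact hzero s
  · obtain ⟨h, hcc⟩ := nodalCoordZero hc hP
    have hsm : Q ∉ Set.range G.n0 := hS.rv.r_zero P Q hP
    rw [hP] at hyC
    have hcoe : ∀ s, (((∑ j, constC (compSetupZero hS) (κ j s) *
        (⟨y j, hyC j⟩ : G.V0) : G.V0)) : FLb N) =
        ∑ j, algebraMap Qb (FLb N) (κ j s : Qb) * y j := by
      intro s
      push_cast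
      rfl
    refine hRA N p A F0 _ G.V0 G.red0 G.r NPt.zero _ (compSetupZero hS) Q hsm P ⟨t, h⟩ hcc d
      (fun j => ⟨y j, hyC j⟩) hyU (fun j P1 h1 => hnp j P1 (h1.trans hP.symm)) S n x hx κ hκ
      ?_ pts τ (fun s => (hpts s).trans hP) hτ ?_
    · intro s
      have := hone s
      rw [hP, ordC_zero Q _ (hcoe s ▸ (∑ j, constC (compSetupZero hS) (κ j s) *
        (⟨y j, hyC j⟩ : G.V0) : G.V0).2)] at this
      convert this using 3
      exact Subtype.ext (hcoe s)
    · intro s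
      rw [hcoe s]
      exact hzero s
  · exact absurd hP (hc.smooth ν)

end Fermat.Agent.H94.ORD
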