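/-
P-ORD, [MOVE] (helper94): combinatorial and valuation-theoretic preliminaries (Mathlib only).

* `ordMove_mapDomain_apply` : `(r_* E)(x) = ∑_{a ∈ supp E} [r a = x] E a`;
* `ordMove_exists_points`   : an effective divisor `E` with `r_* E = r_* (∑ O_i)`, `r ∘ O`
  injective, is `∑ P_i` with `r (P_i) = r (O_i)`;
* constants of a valuation subring: powers and `p`-powers.
-/
import Mathlib

set_option autoImplicit false

namespace Fermat.Agent.H94.ORD

open Finset

section Comb

variable {α β : Type*}

theorem ordMove_mapDomain_apply [DecidableEq β] (r : α → β) (E : α →₀ ℤ) (x : β) :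
    Finsupp.mapDomain r E x = ∑ a ∈ E.support, if r a = x then E a else 0 := by
  classical
  rw [Finsupp.mapDomain, Finsupp.sum, Finsupp.finsetSum_apply]
  refine Finset.sum_congr rfl fun a _ => ?_
  rw [Finsupp.single_apply]

theorem ordMove_le_mapDomain (r : α → β) (E : α →₀ ℤ) (hE : ∀ a, 0 ≤ E a) (a : α) :
    E a ≤ Finsupp.mapDomain r E (r a) := by
  classical
  rw [ordMove_mapDomain_apply]
  by_cases ha : a ∈ E.support
  · calc E a = if r a = r a then E a else 0 := by simp
      _ ≤ ∑ b ∈ E.support, if r b = r a then E b else 0 :=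
        Finset.single_le_sum (f := fun b => if r b = r a then E b else 0)
          (fun b _ => by split_ifs <;> [exact hE b; exact le_rfl]) ha
  · rw [Finsupp.notMem_support_iff] at ha
    rw [ha]
    exact Finset.sum_nonneg fun b _ => by split_ifs <;> [exact hE b; exact le_rfl]

theorem ordMove_mapDomain_nonneg (r : α → β) (E : α →₀ ℤ) (hE : ∀ a, 0 ≤ E a) (x : β) :
    0 ≤ Finsupp.mapDomain r E x := by
  classical
  rw [ordMove_mapDomain_apply]
  exact Finset.sum_nonneg fun b _ => by split_ifs <;> [exact hE b; exact le_rfl]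

theorem ordMove_eq_zero_of_mapDomain (r : α → β) (E : α →₀ ℤ) (hE : ∀ a, 0 ≤ E a) (a : α)
    (h : Finsupp.mapDomain r E (r a) = 0) : E a = 0 :=
  le_antisymm (h ▸ ordMove_le_mapDomain r E hE a) (hE a)

theorem ordMove_mapDomain_eq_zero (r : α → β) (E : α →₀ ℤ) (x : β)
    (h : ∀ a, r a = x → E a = 0) : Finsupp.mapDomain r E x = 0 := by
  classical
  rw [ordMove_mapDomain_apply]
  refine Finset.sum_eq_zero fun a _ => ?_
  split_ifs with hx
  · exact h a hx
  · rfl

theorem ordMove_mapDomain_base {g : ℕ} (r : α → β) (O : Fin g → α) :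
    Finsupp.mapDomain r (∑ i, Finsupp.single (O i) (1 : ℤ)) =
      ∑ i, Finsupp.single (r (O i)) (1 : ℤ) := by
  rw [Finsupp.mapDomain_finsetSum]
  exact Finset.sum_congr rfl fun i _ => Finsupp.mapDomain_single

theorem ordMove_base_apply {g : ℕ} (x : Fin g → β) (hx : Function.Injective x) (i : Fin g) :
    (∑ j, Finsupp.single (x j) (1 : ℤ)) (x i) = 1 := by
  classical
  rw [Finsupp.finsetSum_apply, Finset.sum_eq_single i]
  · simp
  · intro j _ hji
    rw [Finsupp.single_apply, if_neg (fun h => hji (hx h))]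
  · intro h
    exact absurd (Finset.mem_univ i) h

theorem ordMove_base_apply_of_notMem {g : ℕ} (x : Fin g → β) (y : β) (hy : ∀ i, x i ≠ y) :
    (∑ j, Finsupp.single (x j) (1 : ℤ)) y = 0 := by
  classical
  rw [Finsupp.finsetSum_apply]
  refine Finset.sum_eq_zero fun j _ => ?_
  rw [Finsupp.single_apply, if_neg (hy j)]

theorem ordMove_base_nonneg {g : ℕ} (x : Fin g → β) (y : β) :
    0 ≤ (∑ j, Finsupp.single (x j) (1 : ℤ)) y := by
  classical
  rw [Finsupp.finsetSum_apply]
  refine Finset.sum_nonneg fun j _ => ?_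
  rw [Finsupp.single_apply]
  split_ifs <;> norm_num

/-- **Points from divisors.**  An effective divisor `E` whose push-forward is the push-forward
of `∑ O_i`, `r ∘ O` injective, is `∑ P_i` with `r (P_i) = r (O_i)`. -/
theorem ordMove_exists_points {g : ℕ} (r : α → β) (E : α →₀ ℤ) (hE : ∀ a, 0 ≤ E a)
    (O : Fin g → α) (hO : Function.Injective fun i => r (O i))
    (h : Finsupp.mapDomain r E = Finsupp.mapDomain r (∑ i, Finsupp.single (O i) (1 : ℤ))) :
    ∃ P : Fin g → α, (∀ i, r (P i) = r (O i)) ∧ E = ∑ i, Finsupp.single (P i) (1 : ℤ) := by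
  classical
  rw [ordMove_mapDomain_base] at h
  have hval : ∀ i, Finsupp.mapDomain r E (r (O i)) = 1 := by
    intro i
    rw [h]
    exact ordMove_base_apply (fun i => r (O i)) hO i
  -- existence of a point in each fibre
  have hex : ∀ i, ∃ a, r a = r (O i) ∧ E a ≠ 0 := by
    intro i
    by_contra hcon
    push Not at hcon
    have := ordMove_mapDomain_eq_zero r E (r (O i)) hcon
    rw [hval i] at this
    exact one_ne_zero this
  choose P hP hPE using hex
  -- uniqueness
  have huniq : ∀ i a, r a = r (O i) → E a ≠ 0 → a = P i := by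
    intro i a ha hEa
    by_contra hne
    have h1 : 1 ≤ E a := by
      have := hE a
      omega
    have h2 : 1 ≤ E (P i) := by
      have := hE (P i)
      have := hPE i
      omega
    have hsum : E a + E (P i) ≤ Finsupp.mapDomain r E (r (O i)) := by
      rw [ordMove_mapDomain_apply]
      have ha' : a ∈ E.support := Finsupp.mem_support_iff.2 hEa
      have hp' : P i ∈ E.support := Finsupp.mem_support_iff.2 (hPE i)
      have hsub : ({a, P i} : Finset α) ⊆ E.support := by
        intro b hb
        rcases Finset.mem_insert.1 hb with rfl | hb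
        · exact ha'
        · rw [Finset.mem_singleton.1 hb]; exact hp'
      calc E a + E (P i)
          = ∑ b ∈ ({a, P i} : Finset α), if r b = r (O i) then E b else 0 := by
            rw [Finset.sum_pair hne, if_pos ha, if_pos (hP i)]
        _ ≤ ∑ b ∈ E.support, if r b = r (O i) then E b else 0 :=
            Finset.sum_le_sum_of_subset_of_nonneg hsub
              (fun b _ _ => by split_ifs <;> [exact hE b; exact le_rfl])
    rw [hval i] at hsum
    omega
  have hone : ∀ i, E (P i) = 1 := by
    intro i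
    have h1 := ordMove_le_mapDomain r E hE (P i)
    rw [hP i, hval i] at h1
    have := hE (P i)
    have := hPE i
    omega
  have hPinj : Function.Injective P := by
    intro i j hij
    apply hO
    change r (O i) = r (O j)
    rw [← hP i, ← hP j, hij]
  refine ⟨P, hP, ?_⟩
  ext a
  by_cases hEa : E a = 0
  · rw [hEa]
    symm
    apply ordMove_base_apply_of_notMem
    intro i hi
    rw [← hi] at hEa
    exact hPE i hEa
  · have h1 : 1 ≤ Finsupp.mapDomain r E (r a) := by
      have := ordMove_le_mapDomain r E hE a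
      have := hE a
      omega
    rw [h] at h1
    have hmem : ∃ i, r (O i) = r a := by
      by_contra hcon
      push Not at hcon
      rw [ordMove_base_apply_of_notMem (fun i => r (O i)) (r a) hcon] at h1
      omega
    obtain ⟨i, hi⟩ := hmem
    have hai : a = P i := huniq i a hi.symm hEa
    rw [hai, hone i]
    symm
    exact ordMove_base_apply P hPinj i

end Comb

section Const

variable {K : Type*} [Field K] (A : ValuationSubring K)

theorem ordMove_pow_notMem {x : K} (hx : x ∉ A) {m : ℕ} (hm : m ≠ 0) : x ^ m ∉ A := by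
  intro h
  apply hx
  rw [← ValuationSubring.valuation_le_one_iff] at h ⊢
  rw [map_pow] at h
  by_contra hlt
  push Not at hlt
  exact absurd h (not_le.2 (one_lt_pow₀ hlt hm))

theorem ordMove_unit_pow {x : K} (hx : x ∈ A) (hx' : x⁻¹ ∈ A) (m : ℕ) :
    x ^ m ∈ A ∧ (x ^ m)⁻¹ ∈ A := by
  refine ⟨pow_mem hx m, ?_⟩
  rw [← inv_pow]
  exact pow_mem hx' m

/-- `p ^ a * C ∈ A`, `C ∉ A`, `p ∈ A` : `1 ≤ a`. -/
theorem ordMove_one_le_of_notMem {p C : K} (hp : p ∈ A) (hp0 : p ≠ 0) {a : ℤ}
    (h : p ^ a * C ∈ A) (hC : C ∉ A) : 1 ≤ a := by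
  by_contra hcon
  push Not at hcon
  apply hC
  have ha : 0 ≤ -a := by omega
  obtain ⟨k, hk⟩ := Int.eq_ofNat_of_zero_le ha
  have h1 : C = p ^ k * (p ^ a * C) := by
    rw [← mul_assoc, ← zpow_natCast, ← hk, ← zpow_add₀ hp0]
    simp
  rw [h1]
  exact A.mul_mem _ _ (pow_mem hp k) h

/-- `p ^ a * C ∈ A`, `C` a unit of `A`, `p` a nonunit : `0 ≤ a`. -/
theorem ordMove_nonneg_of_unit {p C : K} (hp : p ∈ A.nonunits) (hp0 : p ≠ 0) {a : ℤ}
    (h : p ^ a * C ∈ A) (hC : C⁻¹ ∈ A) (hC0 : C ≠ 0) : 0 ≤ a := by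
  by_contra hcon
  push Not at hcon
  have ha : 0 < -a := by omega
  obtain ⟨k, hk⟩ := Int.eq_ofNat_of_zero_le ha.le
  have hk0 : k ≠ 0 := by
    rintro rfl
    simp at hk
    omega
  have h1 : p ^ a ∈ A := by
    have : p ^ a = p ^ a * C * C⁻¹ := by
      rw [mul_assoc, mul_inv_cancel₀ hC0, mul_one]
    rw [this]
    exact A.mul_mem _ _ h hC
  have h2 : p ^ k ∈ A.nonunits := by
    rw [ValuationSubring.mem_nonunits_iff] at hp ⊢
    rw [map_pow]
    exact pow_lt_one₀ zero_le hp hk0
  have h3 : (1 : K) ∈ A.nonunits := by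
    have : (1 : K) = p ^ k * p ^ a := by
      rw [← zpow_natCast, ← hk, ← zpow_add₀ hp0]
      simp
    rw [this]
    rw [ValuationSubring.mem_nonunits_iff] at h2 ⊢
    rw [map_mul]
    exact mul_lt_one_of_lt_of_le h2 ((A.valuation_le_one_iff _).2 h1)
  rw [ValuationSubring.mem_nonunits_iff, map_one] at h3
  exact lt_irrefl _ h3

theorem ordMove_not_nonunit_of_unit {C : K} (hC : C⁻¹ ∈ A) (hC0 : C ≠ 0) :
    C ∉ A.nonunits := by
  intro h
  rw [ValuationSubring.mem_nonunits_iff] at h
  have h1 := (A.valuation_le_one_iff _).2 hC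
  have h2 : A.valuation (C * C⁻¹) < 1 := by
    rw [map_mul]
    exact mul_lt_one_of_lt_of_le h h1
  rw [mul_inv_cancel₀ hC0, map_one] at h2
  exact lt_irrefl _ h2

end Const

end Fermat.Agent.H94.ORD
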