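/-
P-ORD (S33), block (G-B), row 1148 N-MOVING, helper94: steps (2)-(3) of the first half of the
nodal two-step:
`movingZerosN : TaylorApproxC → RootApproxC → DiscZeroC → UnrCoordN → MovingZerosN`.
Port of `Fermat.Agent.H94.FF.Moving`.
-/
import Fermat.Agent.H94.ORD.JacGlue
import Fermat.Agent.H94.FF.G7Prelim
import Fermat.Agent.H94.FF.Moving

set_option autoImplicit false
set_option synthInstance.maxHeartbeats 400000
set_option maxHeartbeats 1600000
set_option linter.style.haveILetI false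
set_option linter.unusedSectionVars false

noncomputable section

open AlgebraicCurve ModularCurve Fermat.Agent.H27.ESD

namespace Fermat.Agent.H94.ORD

open Fermat.Agent.H10.FF Fermat.Agent.H72.FF Fermat.Agent.H18.ORD Fermat.Agent.H92.ORD
  Fermat.Agent.H94.FF

variable {N p : ℕ} {A : ValuationSubring Qb} {Foo F0 : Type} [Field Foo] [Field F0]
  [Algebra (kRes A) Foo] [Algebra (kRes A) F0] {ι : Type} {G : NodalData N A Foo F0 ι} {g : ℕ}

/-- elements of `L(n P_∞ + n P_0)` have no poles outside `P_∞`, `P_0` -/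
theorem ord_nonneg_of_mem_rr_pair {K F : Type*} [Field K] [Field F] [Algebra K F]
    {Poo P0 : Place K F} {n m : ℤ} {y : F}
    (hy : y ∈ riemannRochSpace (Finsupp.single Poo n + Finsupp.single P0 m)) {P : Place K F}
    (h1 : P ≠ Poo) (h2 : P ≠ P0) : 0 ≤ P.ord y := by
  classical
  rcases (mem_riemannRochSpace_iff.mp hy) P with h | h
  · rw [h, Place.ord_zero]
  · rw [Finsupp.add_apply, Finsupp.single_apply, if_neg (Ne.symm h1), Finsupp.single_apply,
      if_neg (Ne.symm h2)] at h
    simpa using h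

theorem residue_eq_zero_of_nonunits' (a : A) (ha : (a : Qb) ∈ A.nonunits) :
    IsLocalRing.residue A a = 0 := by
  rw [nv_residue_ker]
  intro hu
  rw [ValuationSubring.mem_nonunits_iff_exists_mem_maximalIdeal] at ha
  obtain ⟨ha', hm⟩ := ha
  exact (IsLocalRing.mem_maximalIdeal _).mp hm hu

/-- `u - α` for a nonunit `α` has the same reductions as `u` -/
theorem redOoO_sub_nodalConst (H : NodalRvHyp p G) (u : nodalO G) (a : A)
    (ha : (a : Qb) ∈ A.nonunits) : redOoO G (u - nodalConst H a) = redOoO G u := by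
  rw [map_sub, redOoO_nodalConst, residue_eq_zero_of_nonunits' a ha, map_zero, sub_zero]

theorem red0O_sub_nodalConst (H : NodalRvHyp p G) (u : nodalO G) (a : A)
    (ha : (a : Qb) ∈ A.nonunits) : red0O G (u - nodalConst H a) = red0O G u := by
  rw [map_sub, red0O_nodalConst, residue_eq_zero_of_nonunits' a ha, map_zero, sub_zero]

theorem ordC_sub_nodalConst (H : NodalRvHyp p G) (v : NP A Foo F0 ι) (u : nodalO G) (a : A)
    (ha : (a : Qb) ∈ A.nonunits) :
    ordC G v ((u - nodalConst H a : nodalO G) : FLb N) = ordC G v (u : FLb N) := by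
  rw [ordC_eq_ordPair, ordC_eq_ordPair, redOoO_sub_nodalConst H u a ha,
    red0O_sub_nodalConst H u a ha]

theorem movingZerosN (hTA : TaylorApproxC) (hRA : RootApproxC) (hDZ : DiscZeroC)
    (hCoord : UnrCoordN) : MovingZerosN := by
  intro N p A Foo F0 _ _ _ _ ι G g hS hPkg O t hsys S _ n x hx Pt τ hPt hτv hτ Poo P0 Qoo Q0
    nn u Zx hPoo hP0 huU huL hfam
  have H := hS.rv
  have hdegL := hS.pkgL.deg_one
  have hsmO : ∀ i, IsSm G (G.r (O i)) := fun i => nodalCoord_isSm H (hsys.coord i)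
  -- no poles of `u a` outside the discs of `Poo`, `P0`
  have hu_np : ∀ a P1, G.r P1 ≠ NPt.oo Qoo → G.r P1 ≠ NPt.zero Q0 →
      0 ≤ P1.ord (u a : FLb N) := by
    intro a P1 h1 h2
    refine ord_nonneg_of_mem_rr_pair (huL a) ?_ ?_
    · rintro rfl
      exact h1 hPoo
    · rintro rfl
      exact h2 hP0
  have hu_npQ : ∀ a P1, G.r P1 = G.r (O (jproj a)) → 0 ≤ P1.ord (u a : FLb N) := by
    intro a P1 h
    refine hu_np a P1 ?_ ?_
    · rw [h]
      exact (hfam.qinf_ne _).1
    · rw [h]
      exact (hfam.qinf_ne _).2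
  have hu_npv : ∀ a, ∀ v ∈ Zx a, ∀ P1, G.r P1 = v → 0 ≤ P1.ord (u a : FLb N) := by
    intro a v hv P1 h
    refine hu_np a P1 ?_ ?_
    · rw [h]
      rintro rfl
      exact (hfam.qinf_notMem a).1 hv
    · rw [h]
      rintro rfl
      exact (hfam.qinf_notMem a).2 hv
  -- the values `α`
  have hαex : ∀ s a, HasValue (Pt s a) (u a : FLb N) (valAt (Pt s a) (u a : FLb N)) :=
    fun s a => hasVal_valAt_of_ord (hdegL _) (hu_npQ a _ (hPt s a))
  have hαnu : ∀ s a, valAt (Pt s a) (u a : FLb N) ∈ A.nonunits := by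
    intro s a
    refine value_nonunit_nodal hS (G.r (O (jproj a))) (hsmO _) (u a : FLb N)
      (inComp_of_mem _ (hsmO _) (u a).2) (hu_npQ a) ?_ (Pt s a) (hPt s a) _ (hαex s a)
    rw [ordC_eq_ordPair, hfam.zero_main a]
  have hαA : ∀ s a, valAt (Pt s a) (u a : FLb N) ∈ A := fun s a =>
    ((ValuationSubring.mem_nonunits_iff_exists_mem_maximalIdeal).mp (hαnu s a)).1
  let α : Fin g ⊕ Fin g → S → A := fun a s => ⟨valAt (Pt s a) (u a : FLb N), hαA s a⟩
  have hα : ∀ s a, HasValue (Pt s a) (u a : FLb N) (α a s : Qb) := hαex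
  have hαapp : ∀ a, IsApprox p A x (fun s => (α a s : Qb)) := fun a =>
    taylorApprox_nodal hTA hS (hsys.coord (jproj a)) (u a : FLb N) (huU a)
      (inComp_of_mem _ (hsmO _) (u a).2) (hu_npQ a) S n x hx (fun s => Pt s a) (τ a) _
      (fun s => hPt s a) (fun s => hτv s a) (fun s => hα s a) (hτ a)
  -- the functions `w a s = u a - α a s`
  let w : Fin g ⊕ Fin g → S → nodalO G := fun a s => u a - nodalConst H (α a s)
  have hwcoe : ∀ a s, ((w a s : nodalO G) : FLb N) =
      (u a : FLb N) - algebraMap Qb (FLb N) (α a s : Qb) := fun a s => rfl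
  have hword : ∀ a s v, ordC G v ((w a s : nodalO G) : FLb N) = ordC G v (u a : FLb N) :=
    fun a s v => ordC_sub_nodalConst H v (u a) (α a s) (hαnu s a)
  have hwnp : ∀ a, ∀ v ∈ Zx a, ∀ s P1, G.r P1 = v →
      0 ≤ P1.ord ((w a s : nodalO G) : FLb N) := by
    intro a v hv s P1 h
    rw [hwcoe]
    exact ord_sub_const_nonneg (hdegL P1) (hu_npv a v hv P1 h) _
  -- the zeros
  have hE : ∀ a v s, ∃ P : Place Qb (FLb N), v ∈ Zx a →
      (G.r P = v ∧ P.ord ((w a s : nodalO G) : FLb N) = 1 ∧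
        ∀ P1, G.r P1 = v → P1 ≠ P → P1.ord ((w a s : nodalO G) : FLb N) = 0) := by
    intro a v s
    by_cases hv : v ∈ Zx a
    · obtain ⟨P, h1, h2, h3⟩ := discZero_nodal hDZ hS v (hfam.sm_extra a v hv)
        ((w a s : nodalO G) : FLb N) (inComp_of_mem _ (hfam.sm_extra a v hv) (w a s).2)
        (by rw [hword, ordC_eq_ordPair]; exact hfam.zero_extra a v hv) (hwnp a v hv s)
      exact ⟨P, fun _ => ⟨h1, h2, h3⟩⟩
    · exact ⟨Poo, fun h => absurd h hv⟩
  choose E hE using hE
  have hEzero : ∀ a, ∀ v ∈ Zx a, ∀ s,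
      HasValue (E a v s) ((u a : FLb N) - algebraMap Qb (FLb N) (α a s : Qb)) 0 := by
    intro a v hv s
    rw [← hwcoe]
    show HasVal _ _ _
    rw [hasVal_zero_iff]
    right
    rw [(hE a v s hv).2.1]
  refine ⟨α, E, hα, hαapp, fun a s => hαnu s a, fun a v hv s => (hE a v s hv).1, hEzero,
    ?_, ?_⟩
  · -- uniqueness
    intro a v hv s P1 hP1 h0
    by_contra hne
    have h1 := (hE a v s hv).2.2 P1 hP1 hne
    have h2 : ((w a s : nodalO G) : FLb N) ≠ 0 := by
      intro h
      have := (hE a v s hv).2.1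
      rw [h, Place.ord_zero] at this
      exact zero_ne_one this
    rw [← hwcoe] at h0
    rcases (hasVal_zero_iff P1).mp h0 with h3 | h3
    · exact h2 h3
    · omega
  · -- approximability of values at the moving zeros
    intro a v hv y hyU hyC hynp val hval
    obtain ⟨Pv, tv, hPv, hcv⟩ := hCoord N p A Foo F0 ι G g hS hPkg v (hfam.sm_extra a v hv)
    have hEr : ∀ s, G.r (E a v s) = G.r Pv := fun s => ((hE a v s hv).1).trans hPv.symm
    have hτE : ∀ s, HasValue (E a v s) tv (valAt (E a v s) tv) :=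
      fun s => hasVal_valAt_of_ord (hdegL _) (hcv.nopole _ (hEr s))
    have hsum : ∀ s, (∑ j : Fin 2,
        algebraMap Qb (FLb N) (((![(1 : A), -α a s] : Fin 2 → A) j : A) : Qb) *
        (![(u a : FLb N), (1 : FLb N)] : Fin 2 → FLb N) j) =
        ((w a s : nodalO G) : FLb N) := by
      intro s
      rw [Fin.sum_univ_two, hwcoe]
      simp only [Matrix.cons_val_zero, Matrix.cons_val_one]
      push_cast
      simp
      ring
    have hτEapp : IsApprox p A x (fun s => valAt (E a v s) tv) := by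
      refine rootApprox_nodal hRA hS hcv 2 ![(u a : FLb N), 1] ?_ ?_ ?_ S n x hx
        (fun j s => (![(1 : A), -α a s] : Fin 2 → A) j) ?_ ?_ (E a v) _ hEr hτE ?_
      · rw [Fin.forall_fin_two]
        refine ⟨huU a, ?_⟩
        intro σ hσ
        show galF N σ • (1 : FLb N) = (1 : FLb N)
        rw [smul_one]
      · rw [Fin.forall_fin_two]
        rw [hPv]
        refine ⟨inComp_of_mem _ (hfam.sm_extra a v hv) (u a).2, ?_⟩
        exact inComp_of_mem _ (hfam.sm_extra a v hv) (nodalO G).one_mem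
      · rw [Fin.forall_fin_two]
        refine ⟨fun P1 hP1 => hu_npv a v hv P1 (hP1.trans hPv), fun P1 _ => ?_⟩
        show 0 ≤ P1.ord (1 : FLb N)
        rw [Place.ord_one]
      · rw [Fin.forall_fin_two]
        refine ⟨?_, ?_⟩
        · exact isApprox_const' (unrInt A).one_mem
        · exact IsApprox.neg' (hαapp a)
      · intro s
        rw [hsum s, hPv, hword, ordC_eq_ordPair]
        exact hfam.zero_extra a v hv
      · intro s
        rw [hsum s]
        exact hEzero a v hv s
    exact taylorApprox_nodal hTA hS hcv y hyU (hPv ▸ hyC)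
      (fun P1 h1 => hynp P1 (h1.trans hPv)) S n x hx (E a v) _ val hEr hτE hval hτEapp

end Fermat.Agent.H94.ORD
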