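/-
P-ORD (S33), block (G-B), row 1150 ADD, helper94: SECOND HALF OF THE NODAL TWO-STEP.
`nodalAddApprox : F2FamilyN → ResidualDivisorN → RootApproxC → AddApproxN`.
Port of `Fermat.Agent.H94.FF.addApprox_of_blocks` (`Fermat/Agent/H94/FF/G7Final.lean`).
-/
import Fermat.Agent.H94.ORD.MovingN
import Fermat.Agent.H94.FF.G7Kernel
import Fermat.Agent.H47.FF.RedKernelCore

set_option autoImplicit false
set_option synthInstance.maxHeartbeats 400000
set_option maxHeartbeats 1600000
set_option linter.style.haveILetI false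
set_option linter.unusedSectionVars false

noncomputable section

open AlgebraicCurve ModularCurve Fermat.Agent.H27.ESD

namespace Fermat.Agent.H94.ORD

open Fermat.Agent.H10.FF Fermat.Agent.H72.FF Fermat.Agent.H18.ORD Fermat.Agent.H92.ORD
  Fermat.Agent.H94.FF

variable {N p : ℕ} {A : ValuationSubring Qb} {Foo F0 : Type} [Field Foo] [Field F0]
  [Algebra (kRes A) Foo] [Algebra (kRes A) F0] {ι : Type} {G : NodalData N A Foo F0 ι} {g : ℕ}

/-! ### the auxiliary family at the base points -/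

section AuxFamilyN

variable {Qs : Fin g → NP A Foo F0 ι} {Qoo : Place (kRes A) Foo} {Q0 : Place (kRes A) F0}
  {nn : Fin g ⊕ Fin g → ℕ} {fo : Fin g ⊕ Fin g → Foo} {fz : Fin g ⊕ Fin g → F0}
  {Zx : Fin g ⊕ Fin g → Finset (NP A Foo F0 ι)}

theorem IsAuxFamilyN.ordPair_at (hfam : IsAuxFamilyN G Qs Qoo Q0 nn fo fz Zx)
    (hQs : Function.Injective Qs) (hsm : ∀ i, IsSm G (Qs i)) (i : Fin g)
    (a : Fin g ⊕ Fin g) :
    ordPair (fo a) (fz a) (Qs i) = if jproj a = i then 1 else 0 := by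
  split_ifs with h
  · rw [← h]
    exact hfam.zero_main a
  · exact hfam.zero_else a (Qs i) (hsm i) (hfam.qinf_ne i).1 (hfam.qinf_ne i).2
      (fun h' => h (hQs h').symm) (hfam.qs_notMem a i)

theorem sum_jproj_ite (i : Fin g) :
    (∑ a : Fin g ⊕ Fin g, (if jproj a = i then (1 : ℤ) else 0)) = 2 := by
  rw [Fintype.sum_sum_type]
  have h1 : (∑ a₁ : Fin g, (if jproj (Sum.inl a₁ : Fin g ⊕ Fin g) = i then (1 : ℤ) else 0))
      = 1 := by
    rw [Finset.sum_eq_single i]
    · exact if_pos rfl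
    · intro b _ hb
      exact if_neg hb
    · intro h
      exact absurd (Finset.mem_univ i) h
  have h2 : (∑ a₁ : Fin g, (if jproj (Sum.inr a₁ : Fin g ⊕ Fin g) = i then (1 : ℤ) else 0))
      = 1 := by
    rw [Finset.sum_eq_single i]
    · exact if_pos rfl
    · intro b _ hb
      exact if_neg hb
    · intro h
      exact absurd (Finset.mem_univ i) h
  rw [h1, h2]
  norm_num

/-- `γ ∏ f_a` has a double zero at every base point -/
theorem IsAuxFamilyN.ordPair_prod (hfam : IsAuxFamilyN G Qs Qoo Q0 nn fo fz Zx)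
    (hQs : Function.Injective Qs) (hsm : ∀ i, IsSm G (Qs i)) (i : Fin g) (γ : kRes A)
    (hγ : γ ≠ 0) :
    ordPair (algebraMap (kRes A) Foo γ * ∏ a, fo a) (algebraMap (kRes A) F0 γ * ∏ a, fz a)
      (Qs i) = 2 := by
  have hat := fun a => hfam.ordPair_at hQs hsm i a
  have hsmi := hsm i
  rcases hQ : Qs i with Q | Q | ν
  · simp only [hQ] at hat
    show Q.ord (algebraMap (kRes A) Foo γ * ∏ a, fo a) = 2
    have hprod0 : (∏ a, fo a) ≠ 0 := Finset.prod_ne_zero_iff.mpr fun a _ => (hfam.ne_zero a).1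
    have hγF : algebraMap (kRes A) Foo γ ≠ 0 := (map_ne_zero (algebraMap (kRes A) Foo)).mpr hγ
    rw [Q.ord_mul hγF hprod0, Fermat.Agent.H23.ord_algebraMap,
      Fermat.Agent.H47.FF.ord_finset_prod _ _ _ (fun a _ => (hfam.ne_zero a).1), zero_add]
    rw [← sum_jproj_ite i]
    exact Finset.sum_congr rfl fun a _ => hat a
  · simp only [hQ] at hat
    show Q.ord (algebraMap (kRes A) F0 γ * ∏ a, fz a) = 2
    have hprod0 : (∏ a, fz a) ≠ 0 := Finset.prod_ne_zero_iff.mpr fun a _ => (hfam.ne_zero a).2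
    have hγF : algebraMap (kRes A) F0 γ ≠ 0 := (map_ne_zero (algebraMap (kRes A) F0)).mpr hγ
    rw [Q.ord_mul hγF hprod0, Fermat.Agent.H23.ord_algebraMap,
      Fermat.Agent.H47.FF.ord_finset_prod _ _ _ (fun a _ => (hfam.ne_zero a).2), zero_add]
    rw [← sum_jproj_ite i]
    exact Finset.sum_congr rfl fun a _ => hat a
  · rw [hQ] at hsmi
    exact hsmi.elim

end AuxFamilyN

/-! ### coordinates -/

/-- the coordinate of a nodal system is integral on its component, with simple reduction -/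
theorem nodalCoord_inComp_ordC {P : Place Qb (FLb N)} {t : FLb N}
    (hc : IsNodalUnrCoord G P t) : InComp G (G.r P) t ∧ ordC G (G.r P) t = 1 := by
  rcases hP : G.r P with Q | Q | ν
  · obtain ⟨h, hs⟩ := hc.simple_oo Q hP
    exact ⟨h, by rw [ordC_oo Q t h]; exact hs⟩
  · obtain ⟨h, hs⟩ := hc.simple_zero Q hP
    exact ⟨h, by rw [ordC_zero Q t h]; exact hs⟩
  · exact absurd hP (hc.smooth ν)

/-- a coordinate has a simple zero at `P` and no other zero in the disc -/
theorem nodalCoord_ord (hS : NodalSetup N p A G g) {P : Place Qb (FLb N)} {t : FLb N}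
    (hc : IsNodalUnrCoord G P t) :
    P.ord t = 1 ∧ ∀ P1, G.r P1 = G.r P → P1 ≠ P → P1.ord t = 0 := by
  rcases hP : G.r P with Q | Q | ν
  · obtain ⟨h, hs⟩ := hc.simple_oo Q hP
    exact (hS.rv.compOo hS.pkgL.principal).ord_eq_of_coord Q (hS.rv.r_oo P Q hP) P hP ⟨t, h⟩
      hc.zero hs (fun P1 h1 => hc.nopole P1 (h1.trans hP.symm))
  · obtain ⟨h, hs⟩ := hc.simple_zero Q hP
    exact (hS.rv.compZero hS.pkgL.principal).ord_eq_of_coord Q (hS.rv.r_zero P Q hP) P hP
      ⟨t, h⟩ hc.zero hs (fun P1 h1 => hc.nopole P1 (h1.trans hP.symm))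
  · exact absurd hP (hc.smooth ν)

theorem nodalCoord_value_nonunit (hS : NodalSetup N p A G g) {P : Place Qb (FLb N)}
    {t : FLb N} (hc : IsNodalUnrCoord G P t) (P1 : Place Qb (FLb N)) (hP1 : G.r P1 = G.r P)
    (c : Qb) (h : HasValue P1 t c) : c ∈ A.nonunits := by
  obtain ⟨h1, h2⟩ := nodalCoord_inComp_ordC hc
  exact value_nonunit_nodal hS (G.r P) (nodalCoord_isSm hS.rv hc) t h1 hc.nopole
    (by rw [h2]) P1 hP1 c h

/-! ### division by a coordinate -/

/-- division by an element with nonzero reduction, on one component -/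
theorem comp_mul_inv {Fk : Type} [Field Fk] (V : Subring (FLb N)) (red : V →+* Fk)
    (inv : ∀ u : V, red u ≠ 0 → (u : FLb N)⁻¹ ∈ V) (y t : V) (ht : red t ≠ 0) :
    ∃ h : (y : FLb N) * (t : FLb N)⁻¹ ∈ V,
      red ⟨(y : FLb N) * (t : FLb N)⁻¹, h⟩ = red y * (red t)⁻¹ := by
  have hti : (t : FLb N)⁻¹ ∈ V := inv t ht
  have ht0 : (t : FLb N) ≠ 0 := by
    intro h0
    apply ht
    have : t = 0 := Subtype.ext h0
    rw [this, map_zero]
  refine ⟨V.mul_mem y.2 hti, ?_⟩
  have h1 : (⟨(y : FLb N) * (t : FLb N)⁻¹, V.mul_mem y.2 hti⟩ : V) =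
      y * ⟨(t : FLb N)⁻¹, hti⟩ := rfl
  have h2 : t * (⟨(t : FLb N)⁻¹, hti⟩ : V) = 1 := by
    apply Subtype.ext
    show (t : FLb N) * (t : FLb N)⁻¹ = 1
    exact mul_inv_cancel₀ ht0
  have h3 : red t * red (⟨(t : FLb N)⁻¹, hti⟩ : V) = 1 := by
    rw [← map_mul, h2, map_one]
  rw [h1, map_mul, eq_inv_of_mul_eq_one_right h3]

/-- integrality of a quotient by a coordinate -/
theorem inComp_mul_inv (H : NodalRvHyp p G) (v : NP A Foo F0 ι) (y t : FLb N)
    (hyC : InComp G v y) (htC : InComp G v t) (ht1 : ordC G v t = 1) :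
    InComp G v (y * t⁻¹) := by
  rcases v with Q | Q | ν
  · rw [ordC_oo Q t htC] at ht1
    have ht0 : G.redOo ⟨t, htC⟩ ≠ 0 := by
      intro h0
      rw [h0, Place.ord_zero] at ht1
      exact zero_ne_one ht1
    exact (comp_mul_inv G.Voo G.redOo H.inv_oo ⟨y, hyC⟩ ⟨t, htC⟩ ht0).1
  · rw [ordC_zero Q t htC] at ht1
    have ht0 : G.red0 ⟨t, htC⟩ ≠ 0 := by
      intro h0
      rw [h0, Place.ord_zero] at ht1
      exact zero_ne_one ht1
    exact (comp_mul_inv G.V0 G.red0 H.inv_zero ⟨y, hyC⟩ ⟨t, htC⟩ ht0).1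
  · exact hyC.elim

/-- the order of a quotient by a coordinate -/
theorem ordC_mul_inv (H : NodalRvHyp p G) (v : NP A Foo F0 ι) (F : nodalO G) (t : FLb N)
    (htC : InComp G v t) (ht1 : ordC G v t = 1)
    (hF0 : redOoO G F ≠ 0 ∧ red0O G F ≠ 0) :
    ordC G v ((F : FLb N) * t⁻¹) = ordPair (redOoO G F) (red0O G F) v - 1 := by
  rcases v with Q | Q | ν
  · rw [ordC_oo Q t htC] at ht1
    have ht0 : G.redOo ⟨t, htC⟩ ≠ 0 := by
      intro h0
      rw [h0, Place.ord_zero] at ht1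
      exact zero_ne_one ht1
    obtain ⟨h, hr⟩ := comp_mul_inv G.Voo G.redOo H.inv_oo ⟨(F : FLb N), F.2.1⟩ ⟨t, htC⟩ ht0
    rw [ordC_oo Q _ h, hr]
    show Q.ord (redOoO G F * (G.redOo ⟨t, htC⟩)⁻¹) = Q.ord (redOoO G F) - 1
    rw [Q.ord_mul hF0.1 (inv_ne_zero ht0), Place.ord_inv, ht1]
    ring
  · rw [ordC_zero Q t htC] at ht1
    have ht0 : G.red0 ⟨t, htC⟩ ≠ 0 := by
      intro h0
      rw [h0, Place.ord_zero] at ht1
      exact zero_ne_one ht1
    obtain ⟨h, hr⟩ := comp_mul_inv G.V0 G.red0 H.inv_zero ⟨(F : FLb N), F.2.2⟩ ⟨t, htC⟩ ht0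
    rw [ordC_zero Q _ h, hr]
    show Q.ord (red0O G F * (G.red0 ⟨t, htC⟩)⁻¹) = Q.ord (red0O G F) - 1
    rw [Q.ord_mul hF0.2 (inv_ne_zero ht0), Place.ord_inv, ht1]
    ring
  · exact htC.elim

theorem coe_sum_nodalConst_mul (H : NodalRvHyp p G) {d : ℕ} (κ : Fin d → A)
    (m : Fin d → nodalO G) :
    (((∑ j, nodalConst H (κ j) * m j : nodalO G)) : FLb N) =
      ∑ j, algebraMap Qb (FLb N) (κ j : Qb) * (m j : FLb N) := by
  rw [AddSubmonoidClass.coe_finsetSum]
  rfl


/-- **Second half of the nodal two-step: block (G-B) from its leaves.** -/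
theorem nodalAddApprox (hF2 : F2FamilyN) (hDiv : ResidualDivisorN) (hRA : RootApproxC) :
    AddApproxN := by
  intro N p A Foo F0 _ _ _ _ ι G g hS hPkg O t hsys J1 z hz S hSJ M
  have H := hS.rv
  have hdegL := hS.pkgL.deg_one
  have hsmO : ∀ i, IsSm G (G.r (O i)) := fun i => nodalCoord_isSm H (hsys.coord i)
  -- the points of the classes in `S`
  have hP : ∀ c : ↥S, ∃ P : Fin g → Place Qb (FLb N), IsNodalRep G O (c : JZero N) P :=
    fun c => (hz.mem_iff c).mp (hSJ c c.2)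
  choose Pc hPc using hP
  have hPr : ∀ (c : ↥S) (i : Fin g), G.r (Pc c i) = G.r (O i) := by
    intro c i
    obtain ⟨D, h1, -, -⟩ := hPc c
    exact h1 i
  have hzval : ∀ (c : ↥S) (i : Fin g), HasValue (Pc c i) (t i) (z c i) :=
    fun c i => hz.value c (Pc c) (hPc c) i
  -- parameters
  let x : ↥S × ↥S → Fin (g + g) → Qb :=
    fun s a => Sum.elim (z s.1) (z s.2) (finSumFinEquiv.symm a)
  have hxsum : ∀ (s : ↥S × ↥S) (a : Fin g ⊕ Fin g),
      Sum.elim (z s.1) (z s.2) a ∈ A.nonunits := by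
    intro s a
    rcases a with i | i
    · exact nodalCoord_value_nonunit hS (hsys.coord i) (Pc s.1 i) (hPr s.1 i) _ (hzval s.1 i)
    · exact nodalCoord_value_nonunit hS (hsys.coord i) (Pc s.2 i) (hPr s.2 i) _ (hzval s.2 i)
  have hx : ∀ s a, x s a ∈ A.nonunits := fun s a => hxsum s _
  have main : ∀ i : Fin g,
      IsApprox p A x (fun s => z ((s.1 : JZero N) + (s.2 : JZero N)) i) := by
    intro i
    have hg : 0 < g := i.pos
    let Pt : ↥S × ↥S → Fin g ⊕ Fin g → Place Qb (FLb N) :=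
      fun s => Sum.elim (Pc s.1) (Pc s.2)
    let τ : Fin g ⊕ Fin g → ↥S × ↥S → Qb := fun a s => Sum.elim (z s.1) (z s.2) a
    have hPt : ∀ s a, G.r (Pt s a) = G.r (O (jproj a)) := by
      intro s a
      rcases a with i | i
      · exact hPr s.1 i
      · exact hPr s.2 i
    have hτv : ∀ s a, HasValue (Pt s a) (t (jproj a)) (τ a s) := by
      intro s a
      rcases a with i | i
      · exact hzval s.1 i
      · exact hzval s.2 i
    have hτ : ∀ a, IsApprox p A x (τ a) := by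
      intro a
      have h := isApprox_var' (ℓ := p) (A := A) (x := x) (finSumFinEquiv a)
      have e : (fun s => x s (finSumFinEquiv a)) = τ a := by
        funext s
        show Sum.elim (z s.1) (z s.2) (finSumFinEquiv.symm (finSumFinEquiv a)) = _
        rw [Equiv.symm_apply_apply]
      rwa [e] at h
    obtain ⟨Poo, P0, Qoo, Q0, nn, u, Zx, α, d, m, κ, hPoo, hP0, huL, hfam, hα, hmU, hmL, hκ,
      hγ, hO, hZ⟩ :=
      hF2 N p A Foo F0 ι G g hS hPkg O t hsys hg (↥S × ↥S) (g + g) x hx Pt τ hPt hτv hτ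
    -- `F2`
    let F2 : ↥S × ↥S → nodalO G := fun s => ∑ j, nodalConst H (κ j s) * m j
    have hF2coe : ∀ s, ((F2 s : nodalO G) : FLb N) =
        ∑ j, algebraMap Qb (FLb N) (κ j s : Qb) * (m j : FLb N) :=
      fun s => coe_sum_nodalConst_mul H (fun j => κ j s) m
    have hF2L : ∀ s, ((F2 s : nodalO G) : FLb N) ∈
        riemannRochSpace (Finsupp.single Poo (((∑ a, nn a : ℕ)) : ℤ) +
          Finsupp.single P0 (((∑ a, nn a : ℕ)) : ℤ)) := by
      intro s
      rw [hF2coe]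
      refine Submodule.sum_mem _ fun j _ => ?_
      rw [← Algebra.smul_def]
      exact Submodule.smul_mem _ _ (hmL j)
    have hF2red : ∀ s, ∃ γ : kRes A, γ ≠ 0 ∧
        redOoO G (F2 s) = algebraMap (kRes A) Foo γ * ∏ a, redOoO G (u a) ∧
        red0O G (F2 s) = algebraMap (kRes A) F0 γ * ∏ a, red0O G (u a) := by
      intro s
      obtain ⟨γ, hγ0, h1, h2⟩ := hγ s
      refine ⟨γ, hγ0, ?_, ?_⟩
      · rw [← h1]
        show redOoO G (∑ j, nodalConst H (κ j s) * m j) = _
        rw [map_sum]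
        refine Finset.sum_congr rfl fun j _ => ?_
        rw [map_mul, redOoO_nodalConst]
      · rw [← h2]
        show red0O G (∑ j, nodalConst H (κ j s) * m j) = _
        rw [map_sum]
        refine Finset.sum_congr rfl fun j _ => ?_
        rw [map_mul, red0O_nodalConst]
    have hdiv := fun s => hDiv N p A Foo F0 ι G g hS O t hsys Poo P0 Qoo Q0 nn u Zx hPoo hP0
      huL hfam (Pt s) (fun a => α a s) (hPt s) (hα s) (F2 s) (hF2L s) (hF2red s)
      (fun i => by rw [hF2coe]; exact hO s i)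
      (fun a v hv P1 hP1 h0 => by rw [hF2coe]; exact hZ s a v hv P1 hP1 h0)
    choose P2 hP2r hP2v w hw0 hwdiv using hdiv
    have hz2 : ∀ s : ↥S × ↥S,
        HasValue (P2 s i) (t i) (z ((s.1 : JZero N) + (s.2 : JZero N)) i) := by
      intro s
      obtain ⟨D2, hD2⟩ := exists_degZero_sum_sub hdegL O (P2 s)
      obtain ⟨D, -, hD, hcD⟩ := hPc s.1
      obtain ⟨D', -, hD', hcD'⟩ := hPc s.2
      have hcls := pic0_mk_add_of_principal O (Pc s.1) (Pc s.2) (P2 s) (w s) (hw0 s)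
        (hwdiv s) D D' D2 hD hD' hD2
      rw [← hcD, ← hcD'] at hcls
      exact hz.value _ (P2 s) ⟨D2, hP2r s, hD2, hcls.symm⟩ i
    -- final step
    have hti := hsys.coord i
    obtain ⟨htC, htord⟩ := nodalCoord_inComp_ordC hti
    obtain ⟨htO, htelse⟩ := nodalCoord_ord hS hti
    have ht0 : t i ≠ 0 := by
      intro h0
      rw [h0, Place.ord_zero] at htO
      exact zero_ne_one htO
    have hm_np : ∀ j P1, G.r P1 = G.r (O i) → 0 ≤ P1.ord (m j : FLb N) := by
      intro j P1 h1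
      refine ord_nonneg_of_mem_rr_pair (hmL j) ?_ ?_
      · rintro rfl
        rw [hPoo] at h1
        exact (hfam.qinf_ne i).1 h1.symm
      · rintro rfl
        rw [hP0] at h1
        exact (hfam.qinf_ne i).2 h1.symm
    have hmO : ∀ j, HasValue (O i) (m j : FLb N) (valAt (O i) (m j : FLb N)) :=
      fun j => hasVal_valAt_of_ord (hdegL _) (hm_np j (O i) rfl)
    have hmOR : ∀ j, valAt (O i) (m j : FLb N) ∈ unrInt A := fun j =>
      isUnr_value_mem_unrInt_nodal hS (G.r (O i)) (hsmO i) (m j : FLb N)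
        (inComp_of_mem _ (hsmO i) (m j).2) (O i) rfl (hm_np j) hti.unrP (hmU j) _ (hmO j)
    let mO : Fin d → A := fun j => ⟨valAt (O i) (m j : FLb N), (hmOR j).1⟩
    let y : Fin d → FLb N :=
      fun j => ((m j : FLb N) - algebraMap Qb (FLb N) (mO j : Qb)) * (t i)⁻¹
    have hyU : ∀ j, IsUnrFn A N (y j) := by
      intro j σ hσ
      show galF N σ • (((m j : FLb N) - algebraMap Qb (FLb N) (mO j : Qb)) * (t i)⁻¹) = _
      rw [smul_mul', smul_sub, smul_inv'', hti.unrT σ hσ, hmU j σ hσ,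
        SemilinearAut.smul_algebraMap]
      have : SemilinearAut.baseAut (galF N σ) (mO j : Qb) = (mO j : Qb) := (hmOR j).2 σ hσ
      rw [this]
    have hyC : ∀ j, InComp G (G.r (O i)) (y j) := by
      intro j
      refine inComp_mul_inv H _ _ _ ?_ htC htord
      exact inComp_of_mem _ (hsmO i) (m j - nodalConst H (mO j)).2
    have hynp : ∀ j P1, G.r P1 = G.r (O i) → 0 ≤ P1.ord (y j) := by
      intro j P1 hP1
      show 0 ≤ P1.ord (((m j : FLb N) - algebraMap Qb (FLb N) (mO j : Qb)) * (t i)⁻¹)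
      by_cases h0 : (m j : FLb N) - algebraMap Qb (FLb N) (mO j : Qb) = 0
      · rw [h0, zero_mul, Place.ord_zero]
      rw [P1.ord_mul h0 (inv_ne_zero ht0), P1.ord_inv]
      by_cases hPP : P1 = O i
      · subst hPP
        rw [htO]
        rcases hmO j with hc | hc
        · exact absurd (sub_eq_zero.mpr hc) h0
        · have hc' : 1 ≤ (O i).ord ((m j : FLb N) - algebraMap Qb (FLb N) (mO j : Qb)) := hc
          omega
      · rw [htelse P1 hP1 hPP]
        obtain ⟨b, hb⟩ := exists_hasVal (hdegL P1) (hm_np j P1 hP1)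
        have := (hb.sub (hasVal_const P1 (mO j : Qb))).ord_nonneg
        omega
    -- the relation `∑ κ_j mO_j = 0`
    have hrel : ∀ s, ∑ j, (κ j s : Qb) * (mO j : Qb) = 0 := by
      intro s
      have h1 : HasVal (O i) (∑ j, algebraMap Qb (FLb N) (κ j s : Qb) * (m j : FLb N))
          (∑ j, (κ j s : Qb) * (mO j : Qb)) :=
        hasVal_sum _ _ _ (fun j _ => HasVal.const_mul _ (hmO j))
      exact h1.unique (hO s i)
    -- `∑ κ_j y_j = F2 / t`
    have hsumO : ∀ s, (∑ j, algebraMap Qb (FLb N) (κ j s : Qb) * y j) =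
        ((F2 s : nodalO G) : FLb N) * (t i)⁻¹ := by
      intro s
      rw [hF2coe]
      have h2 : ∀ j, algebraMap Qb (FLb N) (κ j s : Qb) * y j =
          algebraMap Qb (FLb N) (κ j s : Qb) * (m j : FLb N) * (t i)⁻¹ -
            algebraMap Qb (FLb N) ((κ j s : Qb) * (mO j : Qb)) * (t i)⁻¹ := by
        intro j
        show algebraMap Qb (FLb N) (κ j s : Qb) *
          (((m j : FLb N) - algebraMap Qb (FLb N) (mO j : Qb)) * (t i)⁻¹) = _
        rw [map_mul]
        ring
      rw [Finset.sum_congr rfl (fun j _ => h2 j), Finset.sum_sub_distrib, ← Finset.sum_mul,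
        ← Finset.sum_mul, ← map_sum, hrel s, map_zero, zero_mul, sub_zero]
    refine rootApprox_nodal hRA hS hti d y hyU hyC hynp (↥S × ↥S) (g + g) x hx κ hκ ?_
      (fun s => P2 s i) _ (fun s => hP2r s i) hz2 ?_
    · intro s
      rw [hsumO s]
      obtain ⟨γ, hγ0, hγ1, hγ2⟩ := hF2red s
      have hne : redOoO G (F2 s) ≠ 0 ∧ red0O G (F2 s) ≠ 0 := by
        constructor
        · rw [hγ1]
          exact mul_ne_zero ((map_ne_zero (algebraMap (kRes A) Foo)).mpr hγ0)
            (Finset.prod_ne_zero_iff.mpr fun a _ => (hfam.ne_zero a).1)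
        · rw [hγ2]
          exact mul_ne_zero ((map_ne_zero (algebraMap (kRes A) F0)).mpr hγ0)
            (Finset.prod_ne_zero_iff.mpr fun a _ => (hfam.ne_zero a).2)
      rw [ordC_mul_inv H _ (F2 s) (t i) htC htord hne, hγ1, hγ2,
        hfam.ordPair_prod hsys.inj hsmO i γ hγ0]
      norm_num
    · intro s
      rw [hsumO s, ← div_eq_mul_inv]
      exact hP2v s i
  -- conclusion
  choose G' hG' hG'e using fun i => main i M
  choose Gp hGp hGpe using fun i => exists_rename_sum (G' i) (hG' i)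
  refine ⟨Gp, hGp, fun c hc c' hc' i => ?_⟩
  obtain ⟨a, ha, h⟩ := hG'e i (⟨c, hc⟩, ⟨c', hc'⟩)
  refine ⟨a, ha, ?_⟩
  rw [hGpe i]
  exact h

end Fermat.Agent.H94.ORD

end
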