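/-
P-ORD (S33), block B1-ANCHOR, step [LIFT] (helper94): THE CHART LIFT AT THE `ℚ̄`-LEVEL, abstract
assembly.

`chartLiftPair_of_fin_sat` : `ChartLiftPair G x B B'` (helper37's Prop, input `lift` of
`AnchorCharts`) from

* `[FIN]`   : `B` is spanned over `A[x]` by a finite set `s` with `x⁻ᵐ s ⊆ B'`;
* `[L3bar]` : saturation : an element of `B` with zero reduction on both components is `ε t`
  with `ε ∈ 𝔪_A`, `t ∈ B`;
* elementary facts (constants, `x ∈ B`, `x⁻¹ ∈ B'`, `B, B' ⊆ V_∞ ∩ V_0`, `B' ⊆ B[1/x]`),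

by helper17's abstract chart lift `Fermat.Agent.H17.ORD.chartLift_pair` over the ring `A`.
-/
import Fermat.Agent.H37.ORD.AnchorAbs
import Fermat.Agent.H17.ORD.ChartLift

set_option autoImplicit false
set_option linter.unusedSectionVars false
set_option linter.unusedVariables false
set_option linter.style.haveILetI false
set_option synthInstance.maxHeartbeats 400000
set_option maxHeartbeats 1600000

noncomputable section

open AlgebraicCurve ModularCurve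

namespace Fermat.Agent.H94.ORD

open Fermat.Agent.H72.FF Fermat.Agent.H18.ORD Fermat.Agent.H37.ORD

variable {N : ℕ} {A : ValuationSubring Qb} {Foo F0 : Type} [Field Foo] [Field F0]
  [Algebra (kRes A) Foo] [Algebra (kRes A) F0] {ι : Type}

/-- **[FIN]** : `B` is spanned over `A[x]` by a finite set `s ⊆ B` with `x⁻ᵐ s ⊆ B'`
(polynomial form, instance-free). -/
def ChartFin (A : ValuationSubring Qb) (x : FLb N) (B B' : Subring (FLb N)) : Prop :=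
  ∃ (s : Finset (FLb N)) (m : ℕ), (∀ b ∈ s, b ∈ B) ∧ (∀ b ∈ s, x⁻¹ ^ m * b ∈ B') ∧
    ∀ f ∈ B, ∃ (d : ℕ) (c : FLb N → ℕ → Qb), (∀ b i, c b i ∈ A) ∧
      f = ∑ b ∈ s, (∑ i ∈ Finset.range d, algebraMap Qb (FLb N) (c b i) * x ^ i) * b

/-- **[L3bar]** : saturation of the chart : an element of `B` with zero reduction on both
components lies in `𝔪_A B`. -/
def ChartSat (G : NodalData N A Foo F0 ι) (B : Subring (FLb N)) : Prop :=
  ∀ g ∈ B, (∃ h : g ∈ G.Voo, G.redOo ⟨g, h⟩ = 0) → (∃ h0 : g ∈ G.V0, G.red0 ⟨g, h0⟩ = 0) →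
    ∃ ε ∈ A.nonunits, ∃ t ∈ B, g = algebraMap Qb (FLb N) ε * t

/-- the `A`-algebra structure of `F` -/
@[reducible] def chartAlg (N : ℕ) (A : ValuationSubring Qb) : Algebra ↥A (FLb N) :=
  ((algebraMap Qb (FLb N)).comp A.subtype).toAlgebra

theorem chartAlg_algebraMap (a : ↥A) :
    letI := chartAlg N A
    algebraMap ↥A (FLb N) a = algebraMap Qb (FLb N) (a : Qb) := rfl

/-- a subring containing the constants of `A`, as an `A`-subalgebra -/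
def chartSubalg (B : Subring (FLb N)) (hB : ∀ a ∈ A, algebraMap Qb (FLb N) a ∈ B) :
    letI := chartAlg N A
    Subalgebra ↥A (FLb N) :=
  letI := chartAlg N A
  { B.toSubsemiring with
    algebraMap_mem' := fun a => hB (a : Qb) a.2 }

theorem mem_chartSubalg (B : Subring (FLb N)) (hB : ∀ a ∈ A, algebraMap Qb (FLb N) a ∈ B)
    (f : FLb N) : f ∈ chartSubalg B hB ↔ f ∈ B := Iff.rfl

/-- the reduction of a nonunit constant vanishes (component `∞`) -/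
theorem redOo_const_mul_eq (G : NodalData N A Foo F0 ι)
    (hr : ∀ (a : A) (h : algebraMap Qb (FLb N) (a : Qb) ∈ G.Voo),
      G.redOo ⟨_, h⟩ = algebraMap (kRes A) Foo (IsLocalRing.residue A a))
    {ε : Qb} (hε : ε ∈ A.nonunits) (hεV : algebraMap Qb (FLb N) ε ∈ G.Voo) {c : FLb N}
    (hc : c ∈ G.Voo) :
    G.redOo ⟨algebraMap Qb (FLb N) ε * c, G.Voo.mul_mem hεV hc⟩ = 0 := by
  obtain ⟨hεA, hm⟩ := (ValuationSubring.mem_nonunits_iff_exists_mem_maximalIdeal).mp hε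
  have h1 : (⟨algebraMap Qb (FLb N) ε * c, G.Voo.mul_mem hεV hc⟩ : G.Voo) =
      ⟨algebraMap Qb (FLb N) ε, hεV⟩ * ⟨c, hc⟩ := rfl
  have h2 : IsLocalRing.residue A ⟨ε, hεA⟩ = 0 := by
    rw [IsLocalRing.residue_eq_zero_iff]
    exact hm
  rw [h1, map_mul, hr ⟨ε, hεA⟩ hεV, h2, map_zero, zero_mul]

/-- the reduction of a nonunit constant vanishes (component `0`) -/
theorem red0_const_mul_eq (G : NodalData N A Foo F0 ι)
    (hr : ∀ (a : A) (h : algebraMap Qb (FLb N) (a : Qb) ∈ G.V0),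
      G.red0 ⟨_, h⟩ = algebraMap (kRes A) F0 (IsLocalRing.residue A a))
    {ε : Qb} (hε : ε ∈ A.nonunits) (hεV : algebraMap Qb (FLb N) ε ∈ G.V0) {c : FLb N}
    (hc : c ∈ G.V0) :
    G.red0 ⟨algebraMap Qb (FLb N) ε * c, G.V0.mul_mem hεV hc⟩ = 0 := by
  obtain ⟨hεA, hm⟩ := (ValuationSubring.mem_nonunits_iff_exists_mem_maximalIdeal).mp hε
  have h1 : (⟨algebraMap Qb (FLb N) ε * c, G.V0.mul_mem hεV hc⟩ : G.V0) =
      ⟨algebraMap Qb (FLb N) ε, hεV⟩ * ⟨c, hc⟩ := rfl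
  have h2 : IsLocalRing.residue A ⟨ε, hεA⟩ = 0 := by
    rw [IsLocalRing.residue_eq_zero_iff]
    exact hm
  rw [h1, map_mul, hr ⟨ε, hεA⟩ hεV, h2, map_zero, zero_mul]

/-- **THE CHART LIFT, abstract assembly** : `[FIN] + [L3bar] ⟹ ChartLiftPair`. -/
theorem chartLiftPair_of_fin_sat (G : NodalData N A Foo F0 ι) (x : FLb N)
    (B B' : Subring (FLb N)) (hx : x ∈ G.Voo) (hx0 : x ∈ G.V0)
    (hcoo : ∀ a ∈ A, algebraMap Qb (FLb N) a ∈ G.Voo)
    (hczero : ∀ a ∈ A, algebraMap Qb (FLb N) a ∈ G.V0)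
    (hroo : ∀ (a : A) (h : algebraMap Qb (FLb N) (a : Qb) ∈ G.Voo),
      G.redOo ⟨_, h⟩ = algebraMap (kRes A) Foo (IsLocalRing.residue A a))
    (hrzero : ∀ (a : A) (h : algebraMap Qb (FLb N) (a : Qb) ∈ G.V0),
      G.red0 ⟨_, h⟩ = algebraMap (kRes A) F0 (IsLocalRing.residue A a))
    (hcB : ∀ a ∈ A, algebraMap Qb (FLb N) a ∈ B)
    (hcB' : ∀ a ∈ A, algebraMap Qb (FLb N) a ∈ B')
    (hxB : x ∈ B) (hxB' : x⁻¹ ∈ B') (hx_ne : x ≠ 0)
    (hBV : ∀ f ∈ B, f ∈ G.Voo ∧ f ∈ G.V0)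
    (hB'B : ∀ f' ∈ B', ∃ k : ℕ, x ^ k * f' ∈ B)
    (hFin : ChartFin A x B B') (hSat : ChartSat G B) :
    ChartLiftPair G x B B' hx hx0 := by
  classical
  letI := chartAlg N A
  obtain ⟨s, m, hsB, hsm, hspan⟩ := hFin
  refine ⟨m, fun n hn f hf f' hf' hfV hfV0 hfV' hfV0' hro hrz => ?_⟩
  -- `x ^ k * f' ∈ B`
  obtain ⟨k, hk⟩ := hB'B f' hf'
  -- `g₁ = x ^ k * (f - x ^ n * f') ∈ B` has zero reductions
  have hg1B : x ^ k * (f - x ^ n * f') ∈ B := by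
    have e : x ^ k * (f - x ^ n * f') = x ^ k * f - x ^ n * (x ^ k * f') := by ring
    rw [e]
    exact B.sub_mem (B.mul_mem (B.pow_mem hxB k) hf) (B.mul_mem (B.pow_mem hxB n) hk)
  have hg1oo : ∃ h : x ^ k * (f - x ^ n * f') ∈ G.Voo,
      G.redOo ⟨x ^ k * (f - x ^ n * f'), h⟩ = 0 := by
    have hmem : x ^ k * (f - x ^ n * f') ∈ G.Voo :=
      G.Voo.mul_mem (G.Voo.pow_mem hx k)
        (G.Voo.sub_mem hfV (G.Voo.mul_mem (G.Voo.pow_mem hx n) hfV'))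
    refine ⟨hmem, ?_⟩
    have e : (⟨x ^ k * (f - x ^ n * f'), hmem⟩ : G.Voo) =
        (⟨x, hx⟩ : G.Voo) ^ k * (⟨f, hfV⟩ - (⟨x, hx⟩ : G.Voo) ^ n * ⟨f', hfV'⟩) := rfl
    rw [e, map_mul, map_sub, map_mul, map_pow, map_pow, hro, sub_self, mul_zero]
  have hg1z : ∃ h : x ^ k * (f - x ^ n * f') ∈ G.V0,
      G.red0 ⟨x ^ k * (f - x ^ n * f'), h⟩ = 0 := by
    have hmem : x ^ k * (f - x ^ n * f') ∈ G.V0 :=
      G.V0.mul_mem (G.V0.pow_mem hx0 k)
        (G.V0.sub_mem hfV0 (G.V0.mul_mem (G.V0.pow_mem hx0 n) hfV0'))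
    refine ⟨hmem, ?_⟩
    have e : (⟨x ^ k * (f - x ^ n * f'), hmem⟩ : G.V0) =
        (⟨x, hx0⟩ : G.V0) ^ k * (⟨f, hfV0⟩ - (⟨x, hx0⟩ : G.V0) ^ n * ⟨f', hfV0'⟩) := rfl
    rw [e, map_mul, map_sub, map_mul, map_pow, map_pow, hrz, sub_self, mul_zero]
  obtain ⟨ε, hε, t1, ht1, hg1⟩ := hSat _ hg1B hg1oo hg1z
  obtain ⟨hεA, hεm⟩ := (ValuationSubring.mem_nonunits_iff_exists_mem_maximalIdeal).mp hε
  -- `f - x ^ n * f' = ε * t` with `x ^ k * t ∈ B`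
  have hxk : x⁻¹ ^ k * x ^ k = 1 := by rw [← mul_pow, inv_mul_cancel₀ hx_ne, one_pow]
  have hxk' : x ^ k * x⁻¹ ^ k = 1 := by rw [mul_comm]; exact hxk
  have ht : x ^ k * (x⁻¹ ^ k * t1) ∈ chartSubalg B hcB := by
    rw [← mul_assoc, hxk', one_mul]
    exact ht1
  have h : f - x ^ n * f' = algebraMap ↥A (FLb N) ⟨ε, hεA⟩ * (x⁻¹ ^ k * t1) := by
    show f - x ^ n * f' = algebraMap Qb (FLb N) ε * (x⁻¹ ^ k * t1)
    calc f - x ^ n * f' = (x⁻¹ ^ k * x ^ k) * (f - x ^ n * f') := by rw [hxk, one_mul]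
      _ = x⁻¹ ^ k * (x ^ k * (f - x ^ n * f')) := by ring
      _ = x⁻¹ ^ k * (algebraMap Qb (FLb N) ε * t1) := by rw [hg1]
      _ = algebraMap Qb (FLb N) ε * (x⁻¹ ^ k * t1) := by ring
  -- the span hypothesis in helper17's form
  have hspan' : ((chartSubalg B hcB : Subalgebra ↥A (FLb N)) : Set (FLb N)) ⊆
      Submodule.span (Algebra.adjoin ↥A ({x} : Set (FLb N))) (s : Set (FLb N)) := by
    intro r hr
    obtain ⟨d, c, hc, hrc⟩ := hspan r hr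
    rw [SetLike.mem_coe, hrc]
    refine Submodule.sum_mem _ (fun b hb => ?_)
    have hmem : (∑ i ∈ Finset.range d, algebraMap Qb (FLb N) (c b i) * x ^ i) ∈
        Algebra.adjoin ↥A ({x} : Set (FLb N)) := by
      refine Subalgebra.sum_mem _ (fun i _ => ?_)
      refine Subalgebra.mul_mem _ ?_ (Subalgebra.pow_mem _
        (Algebra.subset_adjoin (Set.mem_singleton x)) i)
      exact Subalgebra.algebraMap_mem _ (⟨c b i, hc b i⟩ : ↥A)
    have e : (∑ i ∈ Finset.range d, algebraMap Qb (FLb N) (c b i) * x ^ i) * b =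
        (⟨_, hmem⟩ : Algebra.adjoin ↥A ({x} : Set (FLb N))) • b := rfl
    rw [e]
    exact Submodule.smul_mem _ _ (Submodule.subset_span (Finset.mem_coe.mpr hb))
  have hn' : m ≤ n + 1 := Nat.le_succ_of_le hn
  obtain ⟨F, hFB, hFB', ⟨c, hc, hFc⟩, -⟩ :=
    Fermat.Agent.H17.ORD.chartLift_pair (chartSubalg B hcB) (chartSubalg B' hcB') x hx_ne
      hxB hxB' (s : Set (FLb N)) (fun b hb => hsB b (Finset.mem_coe.mp hb)) hspan' m
      (fun b hb => hsm b (Finset.mem_coe.mp hb)) n hn' ⟨ε, hεA⟩ f f' (x⁻¹ ^ k * t1) hf hf' k ht h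
  have hFc' : F = f + algebraMap Qb (FLb N) ε * c := by
    have : F - f = algebraMap Qb (FLb N) ε * c := hFc
    linear_combination this
  have hcV := hBV c hc
  have hεoo : algebraMap Qb (FLb N) ε ∈ G.Voo := hcoo ε hεA
  have hεz : algebraMap Qb (FLb N) ε ∈ G.V0 := hczero ε hεA
  have hFV : F ∈ G.Voo := (hBV F hFB).1
  have hFV0 : F ∈ G.V0 := (hBV F hFB).2
  refine ⟨F, hFB, hFB', hFV, hFV0, ?_, ?_⟩
  · have e : (⟨F, hFV⟩ : G.Voo) =
        ⟨f, hfV⟩ + ⟨algebraMap Qb (FLb N) ε * c, G.Voo.mul_mem hεoo hcV.1⟩ :=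
      Subtype.ext hFc'
    rw [e, map_add, redOo_const_mul_eq G hroo hε hεoo hcV.1, add_zero]
  · have e : (⟨F, hFV0⟩ : G.V0) =
        ⟨f, hfV0⟩ + ⟨algebraMap Qb (FLb N) ε * c, G.V0.mul_mem hεz hcV.2⟩ :=
      Subtype.ext hFc'
    rw [e, map_add, red0_const_mul_eq G hrzero hε hεz hcV.2, add_zero]

end Fermat.Agent.H94.ORD

end
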