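/-
P-ORD (S33), block B1-ANCHOR, step [LIFT] (helper94): the chart lift, SPAN FORM of `[FIN]`
(helper92's shape, with the canonical `A`-algebra structure of `F`).

`chartLiftPair_of_span_sat` : `ChartFinSpan + ChartSat ⟹ ChartLiftPair`.
-/
import Fermat.Agent.H94.ORD.NmChartLift

set_option autoImplicit false
set_option linter.unusedSectionVars false
set_option linter.unusedVariables false
set_option linter.style.haveILetI false
set_option synthInstance.maxHeartbeats 400000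
set_option maxHeartbeats 1600000

noncomputable section

open AlgebraicCurve ModularCurve

namespace Fermat.Agent.H94.ORD

open Fermat.Agent.H72.FF Fermat.Agent.H18.ORD Fermat.Agent.H37.ORD

variable {N : ℕ} {A : ValuationSubring Qb} {Foo F0 : Type} [Field Foo] [Field F0]
  [Algebra (kRes A) Foo] [Algebra (kRes A) F0] {ι : Type}

/-- **[FIN]**, span form : `B` is spanned over `A[x]` by a finite set `s ⊆ B` with
`x⁻ᵐ s ⊆ B'`. -/
def ChartFinSpan (A : ValuationSubring Qb) (x : FLb N) (B B' : Subring (FLb N)) : Prop :=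
  ∃ (s : Finset (FLb N)) (m : ℕ), (∀ b ∈ s, b ∈ B) ∧
    (∀ f ∈ B, f ∈ Submodule.span (Algebra.adjoin ↥A ({x} : Set (FLb N))) (s : Set (FLb N))) ∧
    ∀ b ∈ s, x⁻¹ ^ m * b ∈ B'

/-- a subring containing the constants of `A`, as an `A`-subalgebra (canonical structure) -/
def chartSubalgG (B : Subring (FLb N)) (hB : ∀ a ∈ A, algebraMap Qb (FLb N) a ∈ B) :
    Subalgebra ↥A (FLb N) :=
  { B.toSubsemiring with
    algebraMap_mem' := fun a => hB (a : Qb) a.2 }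

theorem mem_chartSubalgG (B : Subring (FLb N)) (hB : ∀ a ∈ A, algebraMap Qb (FLb N) a ∈ B)
    (f : FLb N) : f ∈ chartSubalgG B hB ↔ f ∈ B := Iff.rfl

/-- **THE CHART LIFT, abstract assembly, span form.** -/
theorem chartLiftPair_of_span_sat (G : NodalData N A Foo F0 ι) (x : FLb N)
    (B B' : Subring (FLb N)) (hx : x ∈ G.Voo) (hx0 : x ∈ G.V0)
    (hcoo : ∀ a ∈ A, algebraMap Qb (FLb N) a ∈ G.Voo)
    (hczero : ∀ a ∈ A, algebraMap Qb (FLb N) a ∈ G.V0)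
    (hroo : ∀ (a : A) (h : algebraMap Qb (FLb N) (a : Qb) ∈ G.Voo),
      G.redOo ⟨_, h⟩ = algebraMap (kRes A) Foo (IsLocalRing.residue A a))
    (hrzero : ∀ (a : A) (h : algebraMap Qb (FLb N) (a : Qb) ∈ G.V0),
      G.red0 ⟨_, h⟩ = algebraMap (kRes A) F0 (IsLocalRing.residue A a))
    (hcB : ∀ a ∈ A, algebraMap Qb (FLb N) a ∈ B)
    (hcB' : ∀ a ∈ A, algebraMap Qb (FLb N) a ∈ B')
    (hxB : x ∈ B) (hxB' : x⁻¹ ∈ B') (hx_ne : x ≠ 0)
    (hBV : ∀ f ∈ B, f ∈ G.Voo ∧ f ∈ G.V0)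
    (hB'B : ∀ f' ∈ B', ∃ k : ℕ, x ^ k * f' ∈ B)
    (hFin : ChartFinSpan A x B B') (hSat : ChartSat G B) :
    ChartLiftPair G x B B' hx hx0 := by
  classical
  obtain ⟨s, m, hsB, hspan, hsm⟩ := hFin
  refine ⟨m, fun n hn f hf f' hf' hfV hfV0 hfV' hfV0' hro hrz => ?_⟩
  obtain ⟨k, hk⟩ := hB'B f' hf'
  have hg1B : x ^ k * (f - x ^ n * f') ∈ B := by
    have e : x ^ k * (f - x ^ n * f') = x ^ k * f - x ^ n * (x ^ k * f') := by ring
    rw [e]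
    exact B.sub_mem (B.mul_mem (B.pow_mem hxB k) hf) (B.mul_mem (B.pow_mem hxB n) hk)
  have hg1oo : ∃ h : x ^ k * (f - x ^ n * f') ∈ G.Voo,
      G.redOo ⟨x ^ k * (f - x ^ n * f'), h⟩ = 0 := by
    have hmem : x ^ k * (f - x ^ n * f') ∈ G.Voo :=
      G.Voo.mul_mem (G.Voo.pow_mem hx k)
        (G.Voo.sub_mem hfV (G.Voo.mul_mem (G.Voo.pow_mem hx n) hfV'))
    refine ⟨hmem, ?_⟩
    have e : (⟨x ^ k * (f - x ^ n * f'), hmem⟩ : G.Voo) =
        (⟨x, hx⟩ : G.Voo) ^ k * (⟨f, hfV⟩ - (⟨x, hx⟩ : G.Voo) ^ n * ⟨f', hfV'⟩) := rfl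
    rw [e, map_mul, map_sub, map_mul, map_pow, map_pow, hro, sub_self, mul_zero]
  have hg1z : ∃ h : x ^ k * (f - x ^ n * f') ∈ G.V0,
      G.red0 ⟨x ^ k * (f - x ^ n * f'), h⟩ = 0 := by
    have hmem : x ^ k * (f - x ^ n * f') ∈ G.V0 :=
      G.V0.mul_mem (G.V0.pow_mem hx0 k)
        (G.V0.sub_mem hfV0 (G.V0.mul_mem (G.V0.pow_mem hx0 n) hfV0'))
    refine ⟨hmem, ?_⟩
    have e : (⟨x ^ k * (f - x ^ n * f'), hmem⟩ : G.V0) =
        (⟨x, hx0⟩ : G.V0) ^ k * (⟨f, hfV0⟩ - (⟨x, hx0⟩ : G.V0) ^ n * ⟨f', hfV0'⟩) := rfl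
    rw [e, map_mul, map_sub, map_mul, map_pow, map_pow, hrz, sub_self, mul_zero]
  obtain ⟨ε, hε, t1, ht1, hg1⟩ := hSat _ hg1B hg1oo hg1z
  obtain ⟨hεA, hεm⟩ := (ValuationSubring.mem_nonunits_iff_exists_mem_maximalIdeal).mp hε
  have hxk : x⁻¹ ^ k * x ^ k = 1 := by rw [← mul_pow, inv_mul_cancel₀ hx_ne, one_pow]
  have hxk' : x ^ k * x⁻¹ ^ k = 1 := by rw [mul_comm]; exact hxk
  have ht : x ^ k * (x⁻¹ ^ k * t1) ∈ chartSubalgG B hcB := by
    rw [← mul_assoc, hxk', one_mul]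
    exact ht1
  have h : f - x ^ n * f' = algebraMap ↥A (FLb N) ⟨ε, hεA⟩ * (x⁻¹ ^ k * t1) := by
    show f - x ^ n * f' = algebraMap Qb (FLb N) ε * (x⁻¹ ^ k * t1)
    calc f - x ^ n * f' = (x⁻¹ ^ k * x ^ k) * (f - x ^ n * f') := by rw [hxk, one_mul]
      _ = x⁻¹ ^ k * (x ^ k * (f - x ^ n * f')) := by ring
      _ = x⁻¹ ^ k * (algebraMap Qb (FLb N) ε * t1) := by rw [hg1]
      _ = algebraMap Qb (FLb N) ε * (x⁻¹ ^ k * t1) := by ring
  have hspan' : ((chartSubalgG B hcB : Subalgebra ↥A (FLb N)) : Set (FLb N)) ⊆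
      Submodule.span (Algebra.adjoin ↥A ({x} : Set (FLb N))) (s : Set (FLb N)) :=
    fun r hr => hspan r hr
  have hn' : m ≤ n + 1 := Nat.le_succ_of_le hn
  obtain ⟨F, hFB, hFB', ⟨c, hc, hFc⟩, -⟩ :=
    Fermat.Agent.H17.ORD.chartLift_pair (chartSubalgG B hcB) (chartSubalgG B' hcB') x hx_ne
      hxB hxB' (s : Set (FLb N)) (fun b hb => hsB b (Finset.mem_coe.mp hb)) hspan' m
      (fun b hb => hsm b (Finset.mem_coe.mp hb)) n hn' ⟨ε, hεA⟩ f f' (x⁻¹ ^ k * t1) hf hf' k ht h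
  have hFc' : F = f + algebraMap Qb (FLb N) ε * c := by
    have : F - f = algebraMap Qb (FLb N) ε * c := hFc
    linear_combination this
  have hcV := hBV c hc
  have hεoo : algebraMap Qb (FLb N) ε ∈ G.Voo := hcoo ε hεA
  have hεz : algebraMap Qb (FLb N) ε ∈ G.V0 := hczero ε hεA
  have hFV : F ∈ G.Voo := (hBV F hFB).1
  have hFV0 : F ∈ G.V0 := (hBV F hFB).2
  refine ⟨F, hFB, hFB', hFV, hFV0, ?_, ?_⟩
  · have e : (⟨F, hFV⟩ : G.Voo) =
        ⟨f, hfV⟩ + ⟨algebraMap Qb (FLb N) ε * c, G.Voo.mul_mem hεoo hcV.1⟩ :=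
      Subtype.ext hFc'
    rw [e, map_add, redOo_const_mul_eq G hroo hε hεoo hcV.1, add_zero]
  · have e : (⟨F, hFV0⟩ : G.V0) =
        ⟨f, hfV0⟩ + ⟨algebraMap Qb (FLb N) ε * c, G.V0.mul_mem hεz hcV.2⟩ :=
      Subtype.ext hFc'
    rw [e, map_add, red0_const_mul_eq G hrzero hε hεz hcV.2, add_zero]

end Fermat.Agent.H94.ORD

end
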