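/-
P-ORD (S33), block B1-ANCHOR, step [LIFT] (helper94): THE CHART LIFT FOR `nmG`.

`nmChartLift_of_fin_l3` : `H37.ORD.NmChartLiftStatement M p` from

* `NmChartFinStatement M p`  : **[FIN]** (helper92, `H92/ORD/BcChart.lean`) : the chart `B̄(j)` is
  spanned over `A[j]` by a finite set `s` with `j⁻ᵐ s ⊆ B̄(j⁻¹)`;
* `NmChartL3Statement M p`   : **[L3bar]** (helper32, `H32/ORD/NmChartL3.lean`) : an element of
  `B̄(j)` reducing to `0` on both components lies in `𝔪_A B̄(j)`.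

Everything else (constants, `j ∈ B̄(j)`, `B̄ ⊆ V_∞ ∩ V_0`, overlap of the charts) is landed:
helper20 `nmSoft`, helper84 `nmBase_of_soft` / `nmChart_le`, helper17 `crt_overlap`.
-/
import Fermat.Agent.H94.ORD.NmChartLift2
import Fermat.Agent.H37.ORD.AnchorNmDefs
import Fermat.Agent.H20.ORD.NmSoft
import Fermat.Agent.H17.ORD.CrtChartDict
import Fermat.Agent.H92.ORD.BcSat

set_option autoImplicit false
set_option linter.unusedSectionVars false
set_option linter.unusedVariables false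
set_option linter.style.haveILetI false
set_option synthInstance.maxHeartbeats 400000
set_option maxHeartbeats 1600000

noncomputable section

open AlgebraicCurve ModularCurve

namespace Fermat.Agent.H94.ORD

open Fermat.Agent.H72.FF Fermat.Agent.H18.ORD Fermat.Agent.H37.ORD Fermat.Agent.H84.ORD
  Fermat.Agent.H66

/-- **[FIN]** for the charts of `X₀(M p)` (helper92's shape). -/
def NmChartFinStatement (M p : ℕ) [NeZero M] [NeZero p] : Prop :=
  ∀ (A : ValuationSubring Qb) (_ : NmSetup M p A),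
    ∃ (s : Finset (FLb (M * p))) (m : ℕ),
      (∀ b ∈ s, b ∈ nmChart (M * p) A (nmJ (M * p))) ∧
      (∀ f ∈ nmChart (M * p) A (nmJ (M * p)),
        f ∈ Submodule.span (Algebra.adjoin ↥A ({nmJ (M * p)} : Set (FLb (M * p))))
          (s : Set (FLb (M * p)))) ∧
      ∀ b ∈ s, (nmJ (M * p))⁻¹ ^ m * b ∈ nmChart (M * p) A (nmJ (M * p))⁻¹

/-- **[L3bar]** for the chart `j` of `X₀(M p)` (helper32's shape). -/
def NmChartL3Statement (M p : ℕ) [NeZero M] [NeZero p] : Prop :=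
  ∀ (A : ValuationSubring Qb) (h : NmSetup M p A) (g : FLb (M * p)),
    g ∈ nmChart (M * p) A (nmJ (M * p)) →
    Fermat.Agent.H92.ORD.InMoo (M * p) A g →
    Fermat.Agent.H92.ORD.InMzero M p h.cop A g →
    ∃ ε ∈ A.nonunits, ∃ t ∈ nmChart (M * p) A (nmJ (M * p)),
      g = algebraMap Qb (FLb (M * p)) ε * t

/-- `j ≠ 0` -/
theorem nmJ_ne_zero (N : ℕ) [NeZero N] (A : ValuationSubring Qb) : nmJ N ≠ 0 := by
  intro h0
  have h1 := nm_jBarD_red N 1 (one_dvd N) A
  have h2 : (⟨Fermat.Agent.H23.jBarD N 1 (one_dvd N), nm_jBarD_mem N 1 (one_dvd N) A⟩ :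
      gaussOBar N A) = 0 := Subtype.ext h0
  rw [h2, map_zero] at h1
  exact nm_qExpand_jq_ne_zero _ 1 h1.symm

/-- **THE CHART LIFT FOR `nmG`** from [FIN] and [L3bar]. -/
theorem nmChartLift_of_fin_l3 (M p : ℕ) [NeZero M] [NeZero p]
    (hFin : NmChartFinStatement M p) (hL3 : NmChartL3Statement M p) :
    NmChartLiftStatement M p := by
  intro A h htot hj hj0
  have hS := Fermat.Agent.H20.ORD.nmSoft M p
  have H : NmBase M p A := nmBase_of_soft hS h
  obtain ⟨s1, s2, s3, s4, -⟩ := hS A h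
  have hjne : nmJ (M * p) ≠ 0 := nmJ_ne_zero (M * p) A
  refine chartLiftPair_of_span_sat (nmG htot) (nmJ (M * p))
    (nmChart (M * p) A (nmJ (M * p))) (nmChart (M * p) A (nmJ (M * p))⁻¹) hj hj0
    (fun a ha => (s1 a).2 ha) (fun a ha => (s2 a).2 ha) s3 s4
    (fun a ha => algebraMap_mem_nmChart A _ ha) (fun a ha => algebraMap_mem_nmChart A _ ha)
    (self_mem_nmChart A _) (self_mem_nmChart A _) hjne ?_ ?_ (hFin A h) ?_
  · -- `B̄(j) ⊆ V_∞ ∩ V_0`
    intro f hf
    exact ⟨nmChart_le A H.oo.val (fun c hc => H.oo.const_mem c hc) H.oo.j_mem hf,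
      nmChart_le A H.zero.val (fun c hc => H.zero.const_mem c hc) H.zero.j_mem hf⟩
  · -- `B̄(j⁻¹) ⊆ B̄(j)[1/j]`
    intro f' hf'
    obtain ⟨k, hk⟩ := Fermat.Agent.H17.ORD.crt_overlap A (inv_ne_zero hjne) hf'
    rw [inv_inv] at hk
    exact ⟨k, hk⟩
  · -- saturation
    intro g hg hoo hz
    obtain ⟨h1, h2⟩ := hoo
    refine hL3 A h g hg ⟨h1, ?_⟩ hz
    exact (nmRedOo_eq_zero_iff (M * p) A ⟨g, h1⟩).1 h2

end Fermat.Agent.H94.ORD

end
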