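/-
P-ORD (S33), block B1-ANCHOR, step [LIFT] (helper94): THE CHART LIFT FOR `nmG`, CLOSED.

`nmChartLift M p : H37.ORD.NmChartLiftStatement M p`, unconditional, from

* helper93 `bcg_generic`   : [BC](a), the generic base change;
* helper92 `nmChartFin`    : [BC](b) + [FIN] from (a) over the number field `K₀ = ⊥ = ℚ`;
* helper32 `nmChartL3`     : [L3bar];
* `nmChartLift_of_fin_l3`  : the assembly (helper17 `chartLift_pair`).
-/
import Fermat.Agent.H94.ORD.NmChartLiftNm
import Fermat.Agent.H92.ORD.BcChart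
import Fermat.Agent.H93.ORD.BcGeneric
import Fermat.Agent.H32.ORD.NmChartL3

set_option autoImplicit false
set_option maxSynthPendingDepth 3
set_option linter.unusedSectionVars false
set_option linter.unusedVariables false
set_option linter.style.haveILetI false
set_option synthInstance.maxHeartbeats 400000
set_option maxHeartbeats 1600000

noncomputable section

open AlgebraicCurve ModularCurve

namespace Fermat.Agent.H94.ORD

open Fermat.Agent.H72.FF Fermat.Agent.H18.ORD Fermat.Agent.H37.ORD Fermat.Agent.H84.ORD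
  Fermat.Agent.H66

/-- **[BC](a)** in helper92's shape, over any intermediate field `K₀` (helper93 `bcg_generic`). -/
theorem bcGenericAt_any (M p : ℕ) [NeZero M] [NeZero p] (A : ValuationSubring Qb)
    (K₀ : IntermediateField ℚ Qb) : Fermat.Agent.H92.ORD.BcGenericAt M p A K₀ := by
  intro f hf
  letI := Fermat.Agent.H9.E6.modelAlgebra ↥K₀ (A.comap (algebraMap ↥K₀ Qb)) (M * p)
  haveI : IsScalarTower ↥(A.comap (algebraMap ↥K₀ Qb)) ↥K₀
      (Fermat.Agent.H22.KL.ModelField ↥K₀ (M * p)) :=
    Fermat.Agent.H9.E6.modelAlgebra_isScalarTower ↥K₀ (A.comap (algebraMap ↥K₀ Qb)) (M * p)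
  have hbcJ : (Fermat.Agent.H93.KL.klBc (algebraMap ↥K₀ Qb) (modularFunctionFieldFull (M * p))
      (Fermat.Agent.H62.SS.ratK (K₁ := ↥K₀) (modularFunctionFieldFull (M * p))
        (Fermat.Agent.H93.ORD.ntiJ (M * p))) : FLb (M * p)) = nmJ (M * p) := by
    rw [Fermat.Agent.H62.SS.klBc_ratK, ← Fermat.Agent.H93.ORD.nti_nmJ_eq]
  rw [← hbcJ] at hf
  exact Fermat.Agent.H93.ORD.bcg_generic (M * p) A K₀ _ f hf

/-- **[FIN]**, closed. -/
theorem nmChartFinClosed (M p : ℕ) [NeZero M] [NeZero p] : NmChartFinStatement M p :=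
  fun A h => Fermat.Agent.H92.ORD.nmChartFin (⊥ : IntermediateField ℚ Qb) h
    (bcGenericAt_any M p A ⊥)

/-- **[L3bar]**, closed (helper32). -/
theorem nmChartL3Closed (M p : ℕ) [NeZero M] [NeZero p] : NmChartL3Statement M p :=
  fun A h g hg hoo hz => Fermat.Agent.H32.ORD.nmChartL3 M p A h g hg hoo hz

/-- **THE CHART LIFT FOR `nmG`**, unconditional. -/
theorem nmChartLift (M p : ℕ) [NeZero M] [NeZero p] : NmChartLiftStatement M p :=
  nmChartLift_of_fin_l3 M p (nmChartFinClosed M p) (nmChartL3Closed M p)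

end Fermat.Agent.H94.ORD

end
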