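/-
P-ORD (S33), block (G-B), helper94 (owner): THE CLOSED TERM.

`Fermat.Agent.H94.ORD.addApproxN : AddApproxN`
  = `NodalAddApproxStatement (fun .. G => NodalPkg G)` : the group law of `J₀(N)` in nodal Jacobi
coordinates is approximable by polynomials over `R = unrInt A`.

Leaves (rows 1138-1152 of project P-ORD):
  C-TAYLOR / C-TAPPROX / C-ROOT / C-DISC : helper21 (`DiscBlocks`, `DiscAdapters`; also helper44,
    helper32, helper37, helper26, helper42);
  N-COORD : helper69;  N-GS : helper39;  N-AUX : helper90;  N-BASIS : helper29 (also helper44);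
  N-KERNEL : helper83;  N-DIV : helper75 (with helper56);  N-F2 : helper10 (also helper5);
  CRAMER : helper26;  N-MOVING, ADD : helper94 (also helper5).
-/
import Fermat.Agent.H94.ORD.AddN
import Fermat.Agent.H21.Ord.DiscAdapters
import Fermat.Agent.H69.ORD.NodalCoordN
import Fermat.Agent.H39.ORD.GenericSectionN
import Fermat.Agent.H90.ORD.AuxSectionsN
import Fermat.Agent.H29.ORD.LiftBasisN
import Fermat.Agent.H83.ORD.RedKernelN
import Fermat.Agent.H75.ORD.ResDivN
import Fermat.Agent.H10.ORD.F2FamilyN
import Fermat.Agent.H26.FF.TaylorApprox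

set_option autoImplicit false

namespace Fermat.Agent.H94.ORD

/-- **[N-MOVING], closed.** -/
theorem movingZerosN_closed : MovingZerosN :=
  movingZerosN Fermat.Agent.H21.Ord.taylorApproxC21 Fermat.Agent.H21.Ord.rootApproxC21
    Fermat.Agent.H21.Ord.discZeroC21 Fermat.Agent.H69.ORD.unrCoordN

/-- **[N-F2], closed.** -/
theorem f2FamilyN_closed : F2FamilyN :=
  Fermat.Agent.H10.ORD.f2FamilyN
    (Fermat.Agent.H90.ORD.auxSectionsN Fermat.Agent.H39.ORD.genericSectionN)
    Fermat.Agent.H29.ORD.liftBasisN movingZerosN_closed Fermat.Agent.H83.ORD.redKernelN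
    Fermat.Agent.H26.FF.cramer

/-- **BLOCK (G-B), CLOSED**: the group law in nodal Jacobi coordinates is approximable. -/
theorem addApproxN : AddApproxN :=
  nodalAddApprox f2FamilyN_closed Fermat.Agent.H75.ORD.residualDivisorN
    Fermat.Agent.H21.Ord.rootApproxC21

end Fermat.Agent.H94.ORD
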