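/-
P-ORD (S33), block (G-B), helper94: ADAPTER to helper72's wiring.

* `SepRRStatement` : a function field over an algebraically closed field satisfying helper58's
  `RRHyp` has a separating element (row N-SEP);
* `nodalPkg_of_setup` : helper72's full standing hypotheses give the lifting package `NodalPkg`;
* `nodalAdd_of_addApproxN` : `AddApproxN → Fermat.Agent.H72.ORD.NodalAddStatement`;
* `nodalAdd_of_leaves` : block (G-B) from its leaves.
-/
import Fermat.Agent.H94.ORD.AddN
import Fermat.Agent.H72.ORD.Wiring
import Fermat.Agent.H27.ESD.Interfaces1c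

set_option autoImplicit false
set_option synthInstance.maxHeartbeats 400000
set_option linter.style.haveILetI false
set_option linter.unusedSectionVars false

noncomputable section

open AlgebraicCurve ModularCurve Fermat.Agent.H27.ESD

namespace Fermat.Agent.H94.ORD

open Fermat.Agent.H10.FF Fermat.Agent.H72.FF Fermat.Agent.H18.ORD Fermat.Agent.H94.FF

/-- **[N-SEP]** existence of a separating element from Riemann's hypotheses. -/
def SepRRStatement : Prop :=
  ∀ (K F : Type) [Field K] [Field F] [Algebra K F] [IsAlgClosed K],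
    Fermat.Agent.H58.RRHyp K F →
    ∃ x : F, FiniteDimensional (IntermediateField.adjoin K {x}) F ∧
      Algebra.IsSeparable (IntermediateField.adjoin K {x}) F

variable {N p : ℕ} {A : ValuationSubring Qb} {Foo F0 : Type} [Field Foo] [Field F0]
  [Algebra (kRes A) Foo] [Algebra (kRes A) F0] {ι : Type} {G : NodalData N A Foo F0 ι} {g : ℕ}

/-- helper72's full standing hypotheses give the lifting package of block (G-B). -/
theorem nodalPkg_of_setup (hSep : SepRRStatement)
    (hS : Fermat.Agent.H72.ORD.NodalSetup N p A Foo F0 ι G g) : NodalPkg G := by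
  haveI : IsAlgClosed (kRes A) := hS.algClosed
  haveI : Infinite (kRes A) := IsAlgClosed.instInfinite
  refine ⟨hS.lift, hS.algClosed, hS.finite_nodes, ?_, hSep _ _ hS.rrOo, hSep _ _ hS.rrZero⟩
  intro g' hg'
  have hgg : g' = g := hg'.genus_unique hS.pkgL
  refine ⟨genusFF (kRes A) Foo, genusFF (kRes A) F0, riemannPackage_of_rrHyp hS.rrOo,
    riemannPackage_of_rrHyp hS.rrZero, ?_⟩
  rw [hgg]
  have := hS.genus_eq
  exact_mod_cast this

/-- **Block (G-B) in helper72's form.** -/
theorem nodalAdd_of_addApproxN (hSep : SepRRStatement) (h : AddApproxN) :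
    Fermat.Agent.H72.ORD.NodalAddStatement := by
  intro N p A Foo F0 _ _ _ _ ι G g hS O t hsys J1 z hz S hSJ M
  exact h N p A Foo F0 ι G g hS.toGA (nodalPkg_of_setup hSep hS) O t hsys J1 z hz S hSJ M

/-- **Block (G-B) from its leaves.** -/
theorem nodalAdd_of_leaves (hSep : SepRRStatement) (hTR : TaylorRedC)
    (hTA : TaylorApproxC) (hRA : TaylorRedC → RootApproxC) (hDZ : DiscZeroC)
    (hCoord : UnrCoordN) (hGS : GenericSectionN) (hAux : GenericSectionN → AuxSectionsN)
    (hBasis : LiftBasisN) (hKer : RedKernelN) (hDiv : ResidualDivisorN)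
    (hF2 : AuxSectionsN → LiftBasisN → MovingZerosN → RedKernelN → CramerStatement →
      F2FamilyN)
    (hCr : CramerStatement) :
    Fermat.Agent.H72.ORD.NodalAddStatement :=
  nodalAdd_of_addApproxN hSep
    (nodalAddApprox
      (hF2 (hAux hGS) hBasis (movingZerosN hTA (hRA hTR) hDZ hCoord) hKer hCr) hDiv (hRA hTR))

end Fermat.Agent.H94.ORD

end
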